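import Fermat.Agent.GD.Setting

/-!
# Residues modulo `p` as roots of unity
-/

set_option autoImplicit false

noncomputable section

namespace Fermat.Agent.GD

local notation "ℚb" => AlgebraicClosure ℚ

variable (p : ℕ) [Fact p.Prime]

/-- A primitive root of unity of order `p`. -/
def muGen : ℚb := by
  haveI : NeZero p := ⟨(Fact.out : p.Prime).ne_zero⟩
  exact (HasEnoughRootsOfUnity.exists_primitiveRoot ℚb p).choose

theorem muGen_spec : IsPrimitiveRoot (muGen p) p := by
  haveI : NeZero p := ⟨(Fact.out : p.Prime).ne_zero⟩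
  exact (HasEnoughRootsOfUnity.exists_primitiveRoot ℚb p).choose_spec

/-- The generator as a unit. -/
def muUnit : Additive ℚbˣ :=
  Additive.ofMul (Units.mk0 (muGen p) ((muGen_spec p).ne_zero (Fact.out : p.Prime).ne_zero))

theorem nsmul_muUnit : p • muUnit p = 0 :=
  congrArg Additive.ofMul (Units.ext (by simpa using! (muGen_spec p).pow_eq_one))

/-- Residues modulo `p` as roots of unity. -/
def toMu : ZMod p →+ Additive ℚbˣ :=
  ZMod.lift p ⟨zmultiplesHom _ (muUnit p), by
    rw [zmultiplesHom_apply, natCast_zsmul, nsmul_muUnit]⟩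

theorem toMu_natCast (n : ℕ) : toMu p (n : ZMod p) = n • muUnit p := by
  have h1 : toMu p (((1 : ℤ) : ZMod p)) = muUnit p := by
    rw [toMu, ZMod.lift_coe, zmultiplesHom_apply, one_zsmul]
  rw [Int.cast_one] at h1
  rw [← nsmul_one n, map_nsmul, h1]

theorem toMu_injective : Function.Injective (toMu p) := by
  haveI : NeZero p := ⟨(Fact.out : p.Prime).ne_zero⟩
  rw [injective_iff_map_eq_zero]
  intro a ha
  rw [← ZMod.natCast_zmod_val a, toMu_natCast] at ha
  have h := congrArg (fun u : Additive ℚbˣ => (u.toMul : ℚb)) ha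
  simp only [toMul_nsmul, Units.val_pow_eq_pow_val, toMul_zero, Units.val_one] at h
  have := ((muGen_spec p).pow_eq_one_iff_dvd _).mp h
  rw [← ZMod.natCast_zmod_val a, ZMod.natCast_eq_zero_iff]
  exact this

theorem exists_toMu {u : Additive ℚbˣ} (hu : p • u = 0) : ∃ a, toMu p a = u := by
  haveI : NeZero p := ⟨(Fact.out : p.Prime).ne_zero⟩
  have h : (u.toMul : ℚb) ^ p = 1 := by
    rw [← Units.val_pow_eq_pow_val, ← toMul_nsmul, hu, toMul_zero, Units.val_one]
  obtain ⟨i, -, hi⟩ := (muGen_spec p).eq_pow_of_pow_eq_one h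
  refine ⟨i, ?_⟩
  rw [toMu_natCast]
  exact Additive.toMul.injective (Units.ext (by simpa [muUnit] using! hi))

end Fermat.Agent.GD
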