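import Fermat.Agent.GD.Setting
import Fermat.Agent.GD.Local.Bridge
import Fermat.Agent.GalRep.Cyclo

/-!
# Roots of `T`-units are unramified outside `T`
-/

set_option autoImplicit false

noncomputable section

namespace Fermat.Agent.GD

open Fermat.Agent.Galois (GQ)
open scoped Pointwise

local notation "ℚb" => AlgebraicClosure ℚ

theorem mem_fixingSubgroup_adjoin {S : Set ℚb} {σ : GQ} (h : ∀ z ∈ S, σ z = z) :
    σ ∈ (IntermediateField.adjoin ℚ S).fixingSubgroup := by
  have hle : IntermediateField.adjoin ℚ S ≤ IntermediateField.fixedField (Subgroup.zpowers σ) := by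
    rw [IntermediateField.adjoin_le_iff]
    intro z hz
    rw [SetLike.mem_coe, IntermediateField.mem_fixedField_iff]
    intro g hg
    have : Subgroup.zpowers σ ≤ MulAction.stabilizer GQ z :=
      Subgroup.zpowers_le.mpr (MulAction.mem_stabilizer_iff.mpr (h z hz))
    exact this hg
  rw [IntermediateField.mem_fixingSubgroup_iff]
  intro z hz
  exact (IntermediateField.mem_fixedField_iff _ _).mp (hle hz) σ (Subgroup.mem_zpowers σ)

variable {p : ℕ} [Fact p.Prime] {T : Finset Nat.Primes}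

theorem inertia_fixes_root (hT : (⟨p, Fact.out⟩ : Nat.Primes) ∈ T) {q : Nat.Primes} (hq : q ∉ T)
    {A : ValuationSubring ℚb} (hA : A.LiesOverPrime (q : ℕ)) {σ : GQ}
    (hσ : σ ∈ A.inertiaSubgroupIn ℚ) {z : ℚb} (hz0 : z ≠ 0) (hu : z ^ p ∈ A)
    (hu' : (z ^ p)⁻¹ ∈ A) (hfix : σ (z ^ p) = z ^ p) : σ z = z := by
  have hp : p.Prime := Fact.out
  have key : ∀ w : ℚb, w ≠ 0 → w ^ p ∈ A → w ∈ A := by
    intro w hw0 hw
    rcases A.mem_or_inv_mem w with h | h
    · exact h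
    · obtain ⟨r, hr⟩ : ∃ r, p = r + 1 := ⟨p - 1, by have := hp.pos; omega⟩
      have e : w = w ^ p * w⁻¹ ^ r := by
        rw [hr, inv_pow, pow_succ']
        field_simp
      rw [e]
      exact mul_mem hw (pow_mem h r)
  have hzA : z ∈ A := key z hz0 hu
  have hzA' : z⁻¹ ∈ A := key _ (inv_ne_zero hz0) (by rwa [inv_pow])
  obtain ⟨s, hs, rfl⟩ := hσ
  let zA : A := ⟨z, hzA⟩
  let zA' : A := ⟨z⁻¹, hzA'⟩
  have hcoe : (((s • zA) * zA' : A) : ℚb) = s.1 z * z⁻¹ := rfl
  have hpow : ((s • zA) * zA') ^ p = 1 := by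
    refine Subtype.ext ?_
    rw [SubmonoidClass.coe_pow, hcoe, mul_pow, ← map_pow]
    show s.1 (z ^ p) * z⁻¹ ^ p = 1
    have e : s.1 (z ^ p) = z ^ p := hfix
    rw [e, inv_pow, mul_inv_cancel₀ (pow_ne_zero _ hz0)]
  have hres : IsLocalRing.residue A ((s • zA) * zA') = 1 := by
    have h := RingEquiv.congr_fun (MonoidHom.mem_ker.mp hs) (IsLocalRing.residue A zA)
    rw [map_mul, IsLocalRing.ResidueField.residue_smul]
    change s • IsLocalRing.residue A zA = IsLocalRing.residue A zA at h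
    rw [h, ← map_mul]
    exact (congrArg _ (Subtype.ext (mul_inv_cancel₀ hz0))).trans (map_one _)
  have hn : ¬ (q : ℕ) ∣ p := fun h =>
    hq (by rwa [show q = ⟨p, Fact.out⟩ from Subtype.ext ((Nat.prime_dvd_prime_iff_eq q.2 hp).mp h)])
  have h1 := congrArg Subtype.val (GalRep.eq_one_of_residue_eq_one q.2 hA hn hpow hres)
  rw [hcoe, OneMemClass.coe_one] at h1
  show s.1 z = z
  exact (mul_inv_eq_one₀ hz0).mp h1

/-- A `p`-th root of a `T`-unit is fixed by a level unramified outside `T`. -/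
theorem exists_level_root (hT : (⟨p, Fact.out⟩ : Nat.Primes) ∈ T) {N : Subgroup (LT T).G}
    (hN : (LT T).IsLevel N) {x : ℚbˣ} (hx : ∀ s ∈ N, (s : GQ) • x = x)
    (hu : ∀ q ∉ T, ∀ g : GQ, g • x ∈ (placeAt q).unitGroup) {y : ℚbˣ} (hy : y ^ p = x) :
    ∃ N', (LT T).IsLevel N' ∧ ∀ s ∈ N', (s : GQ) • y = y := by
  obtain ⟨F, hF, hFN, hn⟩ := hN
  let S : Set ℚb := (minpoly ℚ (y : ℚb)).rootSet ℚb
  have hint : IsIntegral ℚ (y : ℚb) := Algebra.IsIntegral.isIntegral _
  have hS : ∀ z ∈ S, ∃ g : GQ, g (y : ℚb) = z := by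
    intro z hz
    rw [Polynomial.mem_rootSet] at hz
    exact minpoly.exists_algEquiv_of_root' hint.isAlgebraic hz.2
  have hyS : ∀ g : GQ, g (y : ℚb) ∈ S := fun g => by
    rw [Polynomial.mem_rootSet]
    exact ⟨minpoly.ne_zero hint, by rw [Polynomial.aeval_algEquiv, AlgHom.comp_apply,
      minpoly.aeval, map_zero]⟩
  haveI : FiniteDimensional ℚ (IntermediateField.adjoin ℚ S) :=
    IntermediateField.finiteDimensional_adjoin (fun z _ => Algebra.IsIntegral.isIntegral z)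
  refine ⟨(IntermediateField.adjoin ℚ S).fixingSubgroup, ⟨_, ⟨inferInstance, ?_⟩, rfl, ?_⟩, ?_⟩
  · intro q hq A hA σ hσ
    refine mem_fixingSubgroup_adjoin fun z hz => ?_
    obtain ⟨g, rfl⟩ := hS z hz
    obtain ⟨τ, hτ⟩ := Galois.exists_smul_eq_of_liesOverPrime q.2 (placeAt_liesOverPrime q) hA
    have hpow : (g (y : ℚb)) ^ p = ((g • x : ℚbˣ) : ℚb) := by
      rw [← map_pow, ← Units.val_pow_eq_pow_val, hy]; rfl
    have hU : ∀ w : ℚbˣ, (τ⁻¹ : GQ) • w ∈ (placeAt q).unitGroup →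
        (w : ℚb) ∈ A ∧ ((w : ℚb))⁻¹ ∈ A := by
      intro w hw
      rw [ValuationSubring.mem_unitGroup_iff] at hw
      have e : ∀ v : ℚb, v ∈ A ↔ τ⁻¹ v ∈ placeAt q := fun v => by
        rw [hτ]
        exact ValuationSubring.mem_pointwise_smul_iff_inv_smul_mem
      refine ⟨(e _).mpr ?_, (e _).mpr ?_⟩
      · rw [← ValuationSubring.valuation_le_one_iff]
        exact le_of_eq hw
      · rw [map_inv₀, ← ValuationSubring.valuation_le_one_iff, map_inv₀]
        exact le_of_eq (by rw [inv_eq_one]; exact hw)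
    obtain ⟨h1, h2⟩ := hU (g • x) (by rw [← mul_smul]; exact hu q hq _)
    refine inertia_fixes_root hT hq hA hσ
      (by simpa using (EmbeddingLike.map_ne_zero_iff (f := g)).mpr y.ne_zero) (hpow ▸ h1) (hpow ▸ h2) ?_
    have hσN : σ ∈ N := hFN ▸ hF.2 q hq A hA hσ
    have h3 : (g⁻¹ * σ * g : GQ) ∈ N := by simpa using! hn.conj_mem σ hσN g⁻¹
    have h4 : σ • (g • x) = g • x := by
      calc σ • (g • x) = g • ((g⁻¹ * σ * g : GQ) • x) := by
            rw [← mul_smul, ← mul_smul]; congr 1; group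
        _ = g • x := congrArg (g • ·) (hx _ h3)
    rw [hpow]
    exact congrArg Units.val h4
  · constructor
    intro s hs g
    refine mem_fixingSubgroup_adjoin fun z hz => ?_
    obtain ⟨h, rfl⟩ := hS z hz
    have hfix : s ((g⁻¹ * h : GQ) (y : ℚb)) = (g⁻¹ * h : GQ) (y : ℚb) :=
      (IntermediateField.mem_fixingSubgroup_iff _ _).mp hs _
        (IntermediateField.subset_adjoin ℚ S (hyS _))
    show g (s (g⁻¹ (h (y : ℚb)))) = h (y : ℚb)
    rw [show g⁻¹ (h (y : ℚb)) = (g⁻¹ * h : GQ) (y : ℚb) from rfl, hfix,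
      AlgEquiv.mul_apply]
    exact g.apply_symm_apply _
  · intro s hs
    refine Units.ext ?_
    exact (IntermediateField.mem_fixingSubgroup_iff _ _).mp hs _
      (IntermediateField.subset_adjoin ℚ S (hyS 1))

end Fermat.Agent.GD
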