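import Fermat.Agent.GD.GW.Surjective
import Fermat.Agent.TW.Select
import Fermat.Agent.GD.Global.ClassFormation.Frob

/-!
# Levels from inertia
-/

set_option autoImplicit false

noncomputable section

namespace Fermat.Agent.GD

open Fermat.Agent.Galois (GQ)
open scoped Pointwise

local notation "ℚb" => AlgebraicClosure ℚ

variable {T : Finset Nat.Primes}

/-- A normal open subgroup containing the inertia groups outside `T` is a level. -/
theorem isLevel_of_inertia (N : Subgroup GQ) [N.Normal]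
    (hF : ∃ F : IntermediateField ℚ ℚb, FiniteDimensional ℚ F ∧ F.fixingSubgroup ≤ N)
    (hI : ∀ q : Nat.Primes, q ∉ T → ∀ A : ValuationSubring ℚb, A.LiesOverPrime (q : ℕ) →
      A.inertiaSubgroupIn ℚ ≤ N) :
    (LT T).IsLevel N := by
  obtain ⟨F, hFd, hle⟩ := hF
  have ho : IsOpen (N : Set GQ) :=
    Subgroup.isOpen_mono (G := GQ) (H₁ := F.fixingSubgroup) (H₂ := N) hle F.fixingSubgroup_isOpen
  have hfix : (IntermediateField.fixedField N).fixingSubgroup = N :=
    InfiniteGalois.fixingSubgroup_fixedField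
      (⟨N, Subgroup.isClosed_of_isOpen _ ho⟩ : ClosedSubgroup GQ)
  have hfd : FiniteDimensional ℚ (IntermediateField.fixedField N) := by
    rw [← InfiniteGalois.isOpen_iff_finite, hfix]
    exact ho
  refine ⟨IntermediateField.fixedField N, ⟨hfd, fun q hq A hA => ?_⟩, hfix.symm, ‹_›⟩
  rw [hfix]
  exact hI q hq A hA

theorem isLevel_mono {T' : Finset Nat.Primes} (h : T ⊆ T') {N : Subgroup GQ}
    (hN : (LT T).IsLevel N) : (LT T').IsLevel N := by
  obtain ⟨F, hF, hFN, hn⟩ := hN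
  exact ⟨F, hF.mono h, hFN, hn⟩

theorem inertia_le_of_level {N : Subgroup GQ} (hN : (LT T).IsLevel N) {q : Nat.Primes} (hq : q ∉ T)
    {A : ValuationSubring ℚb} (hA : A.LiesOverPrime (q : ℕ)) : A.inertiaSubgroupIn ℚ ≤ N := by
  obtain ⟨F, hF, rfl, -⟩ := hN
  exact hF.2 q hq A hA

theorem mem_inertia_conj {A : ValuationSubring ℚb} {g σ : GQ}
    (hσ : σ ∈ (g • A).inertiaSubgroupIn ℚ) : g⁻¹ * σ * g ∈ A.inertiaSubgroupIn ℚ := by
  obtain ⟨s, hs, rfl⟩ := hσ
  have hd : g⁻¹ * (s : GQ) * g ∈ A.decompositionSubgroup ℚ := decomposition_smul s.2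
  refine ⟨⟨_, hd⟩, MonoidHom.mem_ker.mpr (RingEquiv.ext fun r => ?_), rfl⟩
  obtain ⟨a, rfl⟩ := IsLocalRing.residue_surjective r
  show (⟨_, hd⟩ : A.decompositionSubgroup ℚ) • IsLocalRing.residue A a = IsLocalRing.residue A a
  rw [Galois.residue_smul_eq hd, ← sub_eq_zero, ← map_sub, IsLocalRing.residue_eq_zero_iff,
    ← ValuationSubring.coe_mem_nonunits_iff]
  have hga : g (a : ℚb) ∈ g • A := ValuationSubring.smul_mem_pointwise_smul g _ A a.2
  have h1 := RingEquiv.congr_fun (MonoidHom.mem_ker.mp hs)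
    (IsLocalRing.residue (g • A : ValuationSubring ℚb) ⟨_, hga⟩)
  change (⟨(s : GQ), s.2⟩ : (g • A).decompositionSubgroup ℚ) •
    IsLocalRing.residue (g • A : ValuationSubring ℚb) ⟨_, hga⟩ = _ at h1
  rw [Galois.residue_smul_eq s.2] at h1
  change IsLocalRing.residue _ _ = IsLocalRing.residue _ _ at h1
  rw [← sub_eq_zero, ← map_sub, IsLocalRing.residue_eq_zero_iff,
    ← ValuationSubring.coe_mem_nonunits_iff] at h1
  rw [← Galois.mem_nonunits_smul_iff g A]
  show g ((g⁻¹ * (s : GQ) * g) (a : ℚb) - (a : ℚb)) ∈ _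
  rw [map_sub, show g ((g⁻¹ * (s : GQ) * g) (a : ℚb)) = (s : GQ) (g a) from g.apply_symm_apply _]
  exact h1

variable {M : Type} [AddCommGroup M] [DistribMulAction GQ M] {f : GQ → M}

theorem cocycle_one (hf : ∀ g h, f (g * h) = f g + g • f h) : f 1 = 0 := by
  have h := hf 1 1
  rw [mul_one, one_smul] at h
  exact right_eq_add.mp h

theorem cocycle_conj (hf : ∀ g h, f (g * h) = f g + g • f h) {σ : GQ}
    (hσ : f σ = 0) (g : GQ) (htriv : ∀ m : M, (g * σ * g⁻¹) • m = m) : f (g * σ * g⁻¹) = 0 := by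
  have h := hf (g * σ * g⁻¹) g
  rw [htriv, show g * σ * g⁻¹ * g = g * σ by group, hf g σ, hσ, smul_zero, add_zero] at h
  exact right_eq_add.mp h

/-- A cocycle killing inertia at one place over a prime where inertia acts trivially kills it at
every place over the prime. -/
theorem cocycle_inertia_conj (hf : ∀ g h, f (g * h) = f g + g • f h) {q : Nat.Primes}
    (htriv : ∀ A : ValuationSubring ℚb, A.LiesOverPrime (q : ℕ) →
      ∀ σ ∈ A.inertiaSubgroupIn ℚ, ∀ m : M, σ • m = m)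
    (h0 : ∀ σ ∈ (placeAt q).inertiaSubgroupIn ℚ, f σ = 0) {A : ValuationSubring ℚb}
    (hA : A.LiesOverPrime (q : ℕ)) {σ : GQ} (hσ : σ ∈ A.inertiaSubgroupIn ℚ) : f σ = 0 := by
  obtain ⟨g, rfl⟩ := Galois.exists_smul_eq_of_liesOverPrime q.2 (placeAt_liesOverPrime q) hA
  have e : σ = g * (g⁻¹ * σ * g) * g⁻¹ := by group
  rw [e]
  exact cocycle_conj hf (h0 _ (mem_inertia_conj hσ)) g (by rw [← e]; exact htriv _ hA σ hσ)

/-- A locally constant cocycle killing inertia outside `T` is defined at a level. -/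
theorem const₁_of_inertia {N₀ : Subgroup GQ} (hN₀ : (LT T).IsLevel N₀)
    (hN₀M : ∀ s ∈ N₀, ∀ m : M, s • m = m) (hf : ∀ g h, f (g * h) = f g + g • f h)
    (hF : ∃ F : IntermediateField ℚ ℚb, FiniteDimensional ℚ F ∧
      ∀ s ∈ F.fixingSubgroup, f s = 0)
    (hI : ∀ q : Nat.Primes, q ∉ T → ∀ A : ValuationSubring ℚb, A.LiesOverPrime (q : ℕ) →
      ∀ σ ∈ A.inertiaSubgroupIn ℚ, f σ = 0) :
    (LT T).Const₁ f := by
  obtain ⟨F₀, hF₀, hF₀N, hn⟩ := id hN₀
  subst hF₀N
  let N : Subgroup GQ :=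
    { carrier := {s | s ∈ F₀.fixingSubgroup ∧ f s = 0}
      one_mem' := ⟨one_mem _, cocycle_one hf⟩
      mul_mem' := fun {a b} ha hb => ⟨mul_mem ha.1 hb.1, by rw [hf, ha.2, hb.2, smul_zero, add_zero]⟩
      inv_mem' := fun {a} ha => ⟨inv_mem ha.1, by
        have h := hf a⁻¹ a
        rw [inv_mul_cancel, cocycle_one hf, ha.2, smul_zero, add_zero] at h
        exact h.symm⟩ }
  have hn' : N.Normal := ⟨fun s hs g => by
    have h1 := hn.conj_mem s hs.1 g
    exact ⟨h1, cocycle_conj hf hs.2 g (hN₀M _ h1)⟩⟩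
  obtain ⟨F, hFd, hF⟩ := hF
  refine ⟨N, isLevel_of_inertia N ⟨F ⊔ F₀, ?_, fun s hs => ?_⟩
    (fun q hq A hA σ hσ => ⟨inertia_le_of_level hN₀ hq hA hσ, hI q hq A hA σ hσ⟩), fun g s hs => ?_⟩
  · haveI := hF₀.1
    exact IntermediateField.finiteDimensional_sup F F₀
  · exact ⟨IntermediateField.fixingSubgroup_le le_sup_right hs,
      hF s (IntermediateField.fixingSubgroup_le le_sup_left hs)⟩
  · refine (hf g s).trans ?_
    rw [show f s = 0 from hs.2, smul_zero, add_zero]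

/-- The level cut out by a finite-level homomorphism and the `p`-th roots of unity. -/
theorem exists_level_ker {p : ℕ} [Fact p.Prime] (hT : (⟨p, Fact.out⟩ : Nat.Primes) ∈ T)
    {H : Type} [Monoid H] (R : GQ →* H)
    (hR : ∃ F : IntermediateField ℚ ℚb, FiniteDimensional ℚ F ∧
      ∀ σ : GQ, (∀ x ∈ F, σ x = x) → R σ = 1)
    (hunr : ∀ q : Nat.Primes, q ∉ T → ∀ A : ValuationSubring ℚb, A.LiesOverPrime (q : ℕ) →
      ∀ σ ∈ A.inertiaSubgroupIn ℚ, R σ = 1) :
    ∃ N : Subgroup (LT T).G, (LT T).IsLevel N ∧ FixesMu p N ∧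
      ∀ s ∈ N, R (show GQ from s) = 1 := by
  have hp : p.Prime := Fact.out
  let N : Subgroup GQ := R.ker ⊓ TW.muFixer p
  haveI : N.Normal := inferInstanceAs (R.ker ⊓ TW.muFixer p).Normal
  obtain ⟨F, hFd, hF⟩ := hR
  obtain ⟨ζ, hζ⟩ := HasEnoughRootsOfUnity.exists_primitiveRoot ℚb p
  haveI : FiniteDimensional ℚ (IntermediateField.adjoin ℚ ({ζ} : Set ℚb)) :=
    IntermediateField.adjoin.finiteDimensional (Algebra.IsIntegral.isIntegral ζ)
  refine ⟨N, isLevel_of_inertia N ⟨F ⊔ IntermediateField.adjoin ℚ {ζ}, inferInstance, fun s hs => ?_⟩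
    (fun q hq A hA σ hσ => ⟨hunr q hq A hA σ hσ, ?_⟩), fun s hs => hs.2, fun s hs => hs.1⟩
  · refine ⟨hF s ((IntermediateField.mem_fixingSubgroup_iff _ _).mp
      (IntermediateField.fixingSubgroup_le le_sup_left hs)), fun μ hμ => ?_⟩
    have h := (IntermediateField.mem_fixingSubgroup_iff _ _).mp
      (IntermediateField.fixingSubgroup_le le_sup_right hs) ζ
      (IntermediateField.mem_adjoin_simple_self ℚ ζ)
    obtain ⟨i, -, rfl⟩ := hζ.eq_pow_of_pow_eq_one hμ
    rw [map_pow, h]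
  · intro μ hμ
    have hμ0 : μ ≠ 0 := fun h => by rw [h, zero_pow hp.ne_zero] at hμ; exact zero_ne_one hμ
    refine inertia_fixes_root (T := T) hT hq hA hσ hμ0 ?_ ?_ ?_
    · rw [hμ]; exact one_mem A
    · rw [hμ, inv_one]; exact one_mem A
    · rw [hμ, map_one]

end Fermat.Agent.GD
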