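import Fermat.Agent.GD.GW
import Fermat.Agent.GD.GW.Levels

/-!
# Trace zero matrices and their twisted duals
-/

set_option autoImplicit false

noncomputable section

namespace Fermat.Agent.GD

open Fermat.Agent.Galois (GQ)
open Matrix

local notation "ℚb" => AlgebraicClosure ℚ

variable {k : Type} [Field k]

/-- The trace zero matrices. -/
def sl2 (k : Type) [Field k] : AddSubgroup (Matrix (Fin 2) (Fin 2) k) :=
  (Matrix.traceAddMonoidHom (Fin 2) k).ker

theorem mem_sl2 {x : Matrix (Fin 2) (Fin 2) k} : x ∈ sl2 k ↔ x.trace = 0 := Iff.rfl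

theorem sl2_one_one (x : sl2 k) : x.1 1 1 = - x.1 0 0 := by
  have h := mem_sl2.mp x.2
  rw [Matrix.trace_fin_two] at h
  exact eq_neg_of_add_eq_zero_right h

theorem sl2_ext {x y : sl2 k} (h00 : x.1 0 0 = y.1 0 0) (h01 : x.1 0 1 = y.1 0 1)
    (h10 : x.1 1 0 = y.1 1 0) : x = y := by
  refine Subtype.ext (Matrix.ext fun i j => ?_)
  fin_cases i <;> fin_cases j
  · exact h00
  · exact h01
  · exact h10
  · show x.1 1 1 = y.1 1 1
    rw [sl2_one_one, sl2_one_one, h00]

/-- Trace zero matrices by three entries. -/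
def sl2Equiv (k : Type) [Field k] : sl2 k ≃ k × k × k where
  toFun x := (x.1 0 0, x.1 0 1, x.1 1 0)
  invFun a := ⟨!![a.1, a.2.1; a.2.2, -a.1], mem_sl2.mpr (by simp [Matrix.trace_fin_two])⟩
  left_inv x := sl2_ext rfl rfl rfl
  right_inv a := rfl

theorem card_sl2 : Nat.card (sl2 k) = Nat.card k ^ 3 := by
  rw [Nat.card_congr (sl2Equiv k), Nat.card_prod, Nat.card_prod]
  ring

theorem not_scalar_cases {A : Matrix (Fin 2) (Fin 2) k} (hA : ∀ a : k, A ≠ a • 1) :
    A 0 1 ≠ 0 ∨ A 1 0 ≠ 0 ∨ A 0 0 ≠ A 1 1 := by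
  by_contra h
  simp only [not_or, not_not] at h
  obtain ⟨h1, h2, h3⟩ := h
  refine hA (A 0 0) (Matrix.ext fun i j => ?_)
  fin_cases i <;> fin_cases j <;> simp_all

/-- The trace zero matrices orthogonal to a non-scalar one fill at most a plane. -/
theorem card_orth_le [Finite k] {A : Matrix (Fin 2) (Fin 2) k} (hA : ∀ a : k, A ≠ a • 1) :
    Nat.card {x : sl2 k // (x.1 * A).trace = 0} ≤ Nat.card k ^ 2 := by
  have e : ∀ x : sl2 k, (x.1 * A).trace =
      x.1 0 0 * (A 0 0 - A 1 1) + x.1 0 1 * A 1 0 + x.1 1 0 * A 0 1 := fun x => by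
    simp only [Matrix.trace_fin_two, Matrix.mul_apply, Fin.sum_univ_two, sl2_one_one]
    ring
  rw [sq, ← Nat.card_prod]
  rcases not_scalar_cases hA with h | h | h
  · refine Nat.card_le_card_of_injective (fun x => (x.1.1 0 0, x.1.1 0 1)) fun x y hxy => ?_
    obtain ⟨h1, h2⟩ := Prod.mk.inj hxy
    have hz := (e x.1).symm.trans (x.2.trans (y.2.symm.trans (e y.1)))
    rw [h1, h2] at hz
    exact Subtype.ext (sl2_ext h1 h2 (mul_right_cancel₀ h (add_left_cancel hz)))
  · refine Nat.card_le_card_of_injective (fun x => (x.1.1 0 0, x.1.1 1 0)) fun x y hxy => ?_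
    obtain ⟨h1, h2⟩ := Prod.mk.inj hxy
    have hz := (e x.1).symm.trans (x.2.trans (y.2.symm.trans (e y.1)))
    rw [h1, h2] at hz
    exact Subtype.ext (sl2_ext h1 (mul_right_cancel₀ h (add_left_cancel (add_right_cancel hz))) h2)
  · refine Nat.card_le_card_of_injective (fun x => (x.1.1 0 1, x.1.1 1 0)) fun x y hxy => ?_
    obtain ⟨h1, h2⟩ := Prod.mk.inj hxy
    have hz := (e x.1).symm.trans (x.2.trans (y.2.symm.trans (e y.1)))
    rw [h1, h2] at hz
    exact Subtype.ext (sl2_ext (mul_right_cancel₀ (sub_ne_zero.mpr h)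
      (add_right_cancel (add_right_cancel hz))) h1 h2)

/-- The trace zero matrices commuting with a non-scalar one fill at most a line. -/
theorem card_commutant_le [Finite k] (h2 : (2 : k) ≠ 0) {A : Matrix (Fin 2) (Fin 2) k}
    (hA : ∀ a : k, A ≠ a • 1) :
    Nat.card {x : sl2 k // x.1 * A = A * x.1} ≤ Nat.card k := by
  have e : ∀ x : {x : sl2 k // x.1 * A = A * x.1},
      x.1.1 0 1 * A 1 0 = A 0 1 * x.1.1 1 0 ∧
        2 * x.1.1 0 0 * A 0 1 = (A 0 0 - A 1 1) * x.1.1 0 1 ∧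
          2 * x.1.1 0 0 * A 1 0 = (A 0 0 - A 1 1) * x.1.1 1 0 := fun x => by
    have h00 := congrFun (congrFun x.2 0) 0
    have h01 := congrFun (congrFun x.2 0) 1
    have h10 := congrFun (congrFun x.2 1) 0
    simp only [Matrix.mul_apply, Fin.sum_univ_two, sl2_one_one] at h00 h01 h10
    exact ⟨by linear_combination h00, by linear_combination h01, by linear_combination -h10⟩
  rcases not_scalar_cases hA with h | h | h
  · refine Nat.card_le_card_of_injective (fun x => x.1.1 0 1) fun x y hxy => ?_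
    dsimp only at hxy
    obtain ⟨a1, a2, -⟩ := e x
    obtain ⟨b1, b2, -⟩ := e y
    rw [hxy] at a1 a2
    exact Subtype.ext (sl2_ext (mul_left_cancel₀ h2 (mul_right_cancel₀ h (a2.trans b2.symm))) hxy
      (mul_left_cancel₀ h (a1.symm.trans b1)))
  · refine Nat.card_le_card_of_injective (fun x => x.1.1 1 0) fun x y hxy => ?_
    dsimp only at hxy
    obtain ⟨a1, -, a2⟩ := e x
    obtain ⟨b1, -, b2⟩ := e y
    rw [hxy] at a1 a2
    exact Subtype.ext (sl2_ext (mul_left_cancel₀ h2 (mul_right_cancel₀ h (a2.trans b2.symm)))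
      (mul_right_cancel₀ h (a1.trans b1.symm)) hxy)
  · refine Nat.card_le_card_of_injective (fun x => x.1.1 0 0) fun x y hxy => ?_
    dsimp only at hxy
    obtain ⟨-, a2, a3⟩ := e x
    obtain ⟨-, b2, b3⟩ := e y
    rw [hxy] at a2 a3
    have h' := sub_ne_zero.mpr h
    exact Subtype.ext (sl2_ext hxy (mul_left_cancel₀ h' (a2.symm.trans b2))
      (mul_left_cancel₀ h' (a3.symm.trans b3)))

variable (R : GQ →* Matrix (Fin 2) (Fin 2) k)

/-- The adjoint module. -/
def Ad0 (_R : GQ →* Matrix (Fin 2) (Fin 2) k) : Type := sl2 k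

/-- The twisted adjoint module. -/
def Ad0Tw (_R : GQ →* Matrix (Fin 2) (Fin 2) k) : Type := sl2 k

instance : AddCommGroup (Ad0 R) := inferInstanceAs (AddCommGroup (sl2 k))
instance : AddCommGroup (Ad0Tw R) := inferInstanceAs (AddCommGroup (sl2 k))
instance [Finite k] : Finite (Ad0 R) := inferInstanceAs (Finite (sl2 k))
instance [Finite k] : Finite (Ad0Tw R) := inferInstanceAs (Finite (sl2 k))

variable {R}

/-- The matrix. -/
def Ad0.mat : Ad0 R →+ Matrix (Fin 2) (Fin 2) k := (sl2 k).subtype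

/-- The matrix. -/
def Ad0Tw.mat : Ad0Tw R →+ Matrix (Fin 2) (Fin 2) k := (sl2 k).subtype

theorem Ad0.mat_injective : Function.Injective (Ad0.mat (R := R)) := Subtype.val_injective
theorem Ad0Tw.mat_injective : Function.Injective (Ad0Tw.mat (R := R)) := Subtype.val_injective
theorem Ad0.trace_mat (x : Ad0 R) : (Ad0.mat x).trace = 0 := (show sl2 k from x).2
theorem Ad0Tw.trace_mat (x : Ad0Tw R) : (Ad0Tw.mat x).trace = 0 := (show sl2 k from x).2

theorem trace_conj_rep (g : GQ) (x : Matrix (Fin 2) (Fin 2) k) :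
    (R g * x * R g⁻¹).trace = x.trace := by
  rw [Matrix.trace_mul_cycle, TW.rep_inv_mul, one_mul]

instance : DistribMulAction GQ (Ad0 R) where
  smul g x := (⟨R g * Ad0.mat x * R g⁻¹, mem_sl2.mpr (by rw [trace_conj_rep, Ad0.trace_mat])⟩ : sl2 k)
  one_smul x := Ad0.mat_injective (by
    show R 1 * Ad0.mat x * R 1⁻¹ = Ad0.mat x
    rw [inv_one, map_one, one_mul, mul_one])
  mul_smul g h x := Ad0.mat_injective (by
    show R (g * h) * Ad0.mat x * R (g * h)⁻¹ = R g * (R h * Ad0.mat x * R h⁻¹) * R g⁻¹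
    simp only [_root_.mul_inv_rev, map_mul, mul_assoc])
  smul_zero g := Ad0.mat_injective (by
    show R g * Ad0.mat (0 : Ad0 R) * R g⁻¹ = Ad0.mat (0 : Ad0 R)
    rw [map_zero, mul_zero, zero_mul])
  smul_add g x y := Ad0.mat_injective (by
    show R g * Ad0.mat (x + y) * R g⁻¹ = R g * Ad0.mat x * R g⁻¹ + R g * Ad0.mat y * R g⁻¹
    rw [map_add, mul_add, add_mul])

theorem Ad0.mat_smul (g : GQ) (x : Ad0 R) : Ad0.mat (g • x) = R g * Ad0.mat x * R g⁻¹ := rfl

instance : DistribMulAction GQ (Ad0Tw R) where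
  smul g x := (⟨TW.adAct R g (Ad0Tw.mat x), mem_sl2.mpr (by
    rw [TW.trace_adAct, Ad0Tw.trace_mat, mul_zero])⟩ : sl2 k)
  one_smul x := Ad0Tw.mat_injective (TW.adAct_one R _)
  mul_smul g h x := Ad0Tw.mat_injective (TW.adAct_mul R g h _)
  smul_zero g := Ad0Tw.mat_injective (TW.adAct_zero R g)
  smul_add g x y := Ad0Tw.mat_injective (TW.adAct_add R g _ _)

theorem Ad0Tw.mat_smul (g : GQ) (x : Ad0Tw R) :
    Ad0Tw.mat (g • x) = TW.adAct R g (Ad0Tw.mat x) := rfl

theorem Ad0.smul_eq_self {g : GQ} (hg : R g = 1) (x : Ad0 R) : g • x = x := by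
  refine Ad0.mat_injective ?_
  have h : R g⁻¹ = 1 := by simpa [hg] using! TW.rep_inv_mul R g
  rw [Ad0.mat_smul, hg, h, one_mul, mul_one]

theorem Ad0Tw.smul_eq_self {g : GQ} (hg : R g = 1) (x : Ad0Tw R) : g • x = x := by
  refine Ad0Tw.mat_injective ?_
  have h : R g⁻¹ = 1 := by simpa [hg] using! TW.rep_inv_mul R g
  rw [Ad0Tw.mat_smul, TW.adAct, hg, h, one_mul, mul_one, Matrix.det_one, one_smul]

theorem card_ad0 : Nat.card (Ad0 R) = Nat.card k ^ 3 := card_sl2

variable {p : ℕ} [Fact p.Prime] [CharP k p]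

theorem Ad0.nsmul_eq_zero (x : Ad0 R) : p • x = 0 := Ad0.mat_injective (by
  rw [map_nsmul, map_zero, ← Nat.cast_smul_eq_nsmul k, CharP.cast_eq_zero, zero_smul])

theorem Ad0Tw.nsmul_eq_zero (x : Ad0Tw R) : p • x = 0 := Ad0Tw.mat_injective (by
  rw [map_nsmul, map_zero, ← Nat.cast_smul_eq_nsmul k, CharP.cast_eq_zero, zero_smul])

omit [CharP k p] in
theorem eq_zero_of_fixed [CharP k p] (h : TW.TWHyp p R) {x : Ad0 R} (hx : ∀ g : GQ, g • x = x) :
    x = 0 := by
  have h2 := TW.two_ne_zero_of_twHyp h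
  by_contra hne
  have hns : ∀ a : k, Ad0.mat x ≠ a • 1 := fun a ha => by
    have ht := Ad0.trace_mat x
    rw [ha, Matrix.trace_smul, Matrix.trace_one, Fintype.card_fin, Nat.cast_ofNat, smul_eq_mul] at ht
    have ha0 := (mul_eq_zero.mp ht).resolve_right h2
    exact hne (Ad0.mat_injective (by rw [ha, ha0, zero_smul, map_zero]))
  refine TW.no_commutant h.irreducible hns fun g => Or.inl ?_
  have e := congrArg Ad0.mat (hx g)
  rw [Ad0.mat_smul] at e
  conv_rhs => rw [← e, mul_assoc, TW.rep_inv_mul, mul_one]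

end Fermat.Agent.GD
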