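import Fermat.Agent.GD.GW.DualAd
import Fermat.Prelude.Def_GaloisRep_ComplexConjugation

/-!
# Local invariants of the dual adjoint module
-/

set_option autoImplicit false

noncomputable section

namespace Fermat.Agent.GD

open Fermat.Agent.Galois (GQ)
open Matrix

local notation "ℚb" => AlgebraicClosure ℚ

variable {k : Type} [Field k] {R : GQ →* Matrix (Fin 2) (Fin 2) k}
variable {M : Type} [AddCommGroup M] [DistribMulAction GQ M]

local instance (v : Place) : DistribMulAction (LD v).G M :=
  inferInstanceAs (DistribMulAction (decomp v) M)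

variable {p : ℕ} [Fact p.Prime] [Finite k] [CharP k p]

theorem adDualEquiv_symm_smul (h : TW.TWHyp p R) (g : GQ) (φ : DualMod (Ad0 R)) :
    (adDualEquiv h).symm (dualSmul (Ad0 R) g φ) = g • (adDualEquiv h).symm φ := by
  rw [AddEquiv.symm_apply_eq]
  conv_lhs => rw [← (adDualEquiv h).apply_symm_apply φ]
  exact (adDual_smul h g _).symm

theorem finite_dual (h : TW.TWHyp p R) : Finite (Ad0 R →+ Additive ℚbˣ) :=
  Finite.of_equiv _ (adDualEquiv h).toEquiv

theorem finite_homC (h : TW.TWHyp p R) (v : Place) :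
    Finite ((LD v).HomC (Ad0 R) (Additive ℚbˣ)) :=
  haveI := finite_dual h
  Finite.of_injective Subtype.val Subtype.val_injective

/-- Invariant homomorphisms give invariant twisted matrices. -/
theorem card_homC_le (h : TW.TWHyp p R) (v : Place) :
    Nat.card ((LD v).HomC (Ad0 R) (Additive ℚbˣ)) ≤
      Nat.card {x : Ad0Tw R // ∀ d ∈ decomp v, d • x = x} := by
  refine Nat.card_le_card_of_injective (fun φ => ⟨(adDualEquiv h).symm φ.1, fun d hd => ?_⟩)
    fun φ ψ e => Subtype.ext ((adDualEquiv h).symm.injective (congrArg Subtype.val e))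
  rw [← adDualEquiv_symm_smul]
  refine congrArg _ (AddMonoidHom.ext fun m => ?_)
  show d • φ.1 (d⁻¹ • m) = φ.1 m
  have e := φ.2 (⟨d, hd⟩ : decomp v) (d⁻¹ • m)
  refine e.symm.trans ?_
  show φ.1 (d • d⁻¹ • m) = φ.1 m
  rw [smul_inv_smul]

theorem complexConjugation_pow_eq {μ : ℚb} (hμ : μ ^ p = 1) :
    complexConjugation μ = μ ^ (p - 1) := by
  have hp : p.Prime := Fact.out
  have hz : complexEmbedding μ ^ p = 1 := by rw [← map_pow, hμ, map_one]
  refine complexEmbedding.toRingHom.injective ?_
  show complexEmbedding (complexConjugation μ) = complexEmbedding (μ ^ (p - 1))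
  rw [complexEmbedding_complexConjugation, map_pow,
    ← Complex.inv_eq_conj (Complex.norm_eq_one_of_pow_eq_one hz hp.ne_zero)]
  refine inv_eq_of_mul_eq_one_right ?_
  rw [← pow_succ', Nat.sub_add_cancel hp.pos, hz]

/-- Complex conjugation is odd: its fixed points in the twist lie in a plane. -/
theorem card_homC_none_le (h : TW.TWHyp p R) :
    Nat.card ((LD none).HomC (Ad0 R) (Additive ℚbˣ)) ≤ Nat.card k ^ 2 := by
  have h2 := TW.two_ne_zero_of_twHyp h
  set C := R complexConjugation with hC
  have hdet : C.det = -1 := by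
    rw [hC, h.det_cyclotomic complexConjugation (p - 1) fun μ hμ => complexConjugation_pow_eq hμ,
      Nat.cast_sub (Fact.out : p.Prime).pos, CharP.cast_eq_zero, Nat.cast_one, zero_sub]
  have hsq : C * C = 1 := by
    rw [hC, ← map_mul, complexConjugation_mul_self, map_one]
  have htr : C.trace = 0 := by
    have e00 := congrFun (congrFun hsq 0) 0
    have e11 := congrFun (congrFun hsq 1) 1
    simp [Matrix.mul_apply, Fin.sum_univ_two] at e00 e11
    rw [Matrix.det_fin_two] at hdet
    rw [Matrix.trace_fin_two]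
    refine (pow_eq_zero_iff two_ne_zero).mp ?_
    linear_combination e00 + e11 + 2 * hdet
  have hns : ∀ a : k, C ≠ a • 1 := fun a ha => by
    rw [ha, Matrix.trace_smul, Matrix.trace_one, Fintype.card_fin, Nat.cast_ofNat, smul_eq_mul] at htr
    rw [ha, (mul_eq_zero.mp htr).resolve_right h2, zero_smul, Matrix.det_zero] at hdet
    exact one_ne_zero (neg_eq_zero.mp hdet.symm)
  refine ((card_homC_le h none).trans ?_).trans (card_orth_le hns)
  refine Nat.card_le_card_of_injective (fun x => ⟨x.1, ?_⟩)
    fun x y e => Subtype.ext (congrArg (fun z => z.1) e)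
  have hx := congrArg Ad0Tw.mat
    (x.2 complexConjugation (Subgroup.mem_zpowers complexConjugation))
  rw [Ad0Tw.mat_smul, TW.adAct, hdet, neg_smul, one_smul] at hx
  show (Ad0Tw.mat x.1 * C).trace = 0
  have e : Ad0Tw.mat x.1 * C = -(C * Ad0Tw.mat x.1) := by
    conv_lhs => rw [← hx, neg_mul, mul_assoc, TW.rep_inv_mul, mul_one]
  have e' := congrArg Matrix.trace e
  rw [Matrix.trace_neg, Matrix.trace_mul_comm C] at e'
  refine (mul_eq_zero.mp (?_ : (2 : k) * (Ad0Tw.mat x.1 * C).trace = 0)).resolve_left h2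
  linear_combination e'

/-- At a prime with distinct Frobenius eigenvalues and trivial twist the invariants lie in a line. -/
theorem card_homC_some_le (h : TW.TWHyp p R) (q : Nat.Primes) {φ : GQ}
    (hφ : φ ∈ decomp (some q)) (hdet : (R φ).det = 1)
    (hns : ∀ a : k, R φ ≠ a • 1) :
    Nat.card ((LD (some q)).HomC (Ad0 R) (Additive ℚbˣ)) ≤ Nat.card k := by
  refine ((card_homC_le h _).trans ?_).trans (card_commutant_le (TW.two_ne_zero_of_twHyp h) hns)
  refine Nat.card_le_card_of_injective (fun x => ⟨x.1, ?_⟩)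
    fun x y e => Subtype.ext (congrArg (fun z => z.1) e)
  have hx := congrArg Ad0Tw.mat (x.2 φ hφ)
  rw [Ad0Tw.mat_smul, TW.adAct, hdet, one_smul] at hx
  show Ad0Tw.mat x.1 * R φ = R φ * Ad0Tw.mat x.1
  conv_lhs => rw [← hx, mul_assoc, TW.rep_inv_mul, mul_one]

end Fermat.Agent.GD
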