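import Fermat.Agent.GD.GW.TWPrimes

/-!
# The Selmer bound for the adjoint module at Taylor-Wiles level
-/

set_option autoImplicit false

noncomputable section

namespace Fermat.Agent.GD

open Fermat.Agent.Galois (GQ)
open Matrix Polynomial

local notation "ℚb" => AlgebraicClosure ℚ

variable {k : Type} [Field k] {R : GQ →* Matrix (Fin 2) (Fin 2) k}
variable {M : Type} [AddCommGroup M] [DistribMulAction GQ M] {T : Finset Nat.Primes}

local instance : DistribMulAction (LT T).G M := inferInstanceAs (DistribMulAction GQ M)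

local instance (v : Place) : DistribMulAction (LD v).G M :=
  inferInstanceAs (DistribMulAction (decomp v) M)

variable {p : ℕ} [Fact p.Prime] [Finite k] [CharP k p]

theorem cardClasses_none_eq_one (hp2 : p ≠ 2) [Finite M] (hp : ∀ m : M, p • m = 0)
    (hM : (LD none).Smooth M) (L : AddSubgroup ((LD none).Z1 M))
    (hL : ((LD none).B1 M).addSubgroupOf ((LD none).Z1 M) ≤ L) :
    cardClasses M none L = 1 := by
  have h1 : (((LD none).B1 M).addSubgroupOf ((LD none).Z1 M)).index = 1 :=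
    AddSubgroup.index_eq_one.mpr (eq_top_iff.mpr fun x _ => h1_archimedean hp2 M hp hM x.1 x.2)
  have h2 := cardClasses_mul_index none L hL
  exact Nat.eq_one_of_mul_eq_one_right (h2.trans h1)

omit [Finite k] [CharP k p] in
theorem frobenius_apply_mu {q : Nat.Primes} (hqp : q ≠ ⟨p, Fact.out⟩) {A : ValuationSubring ℚb}
    (hA : A.LiesOverPrime (q : ℕ)) {φ : GQ} (hφ : A.IsFrobeniusAt φ (q : ℕ)) {μ : ℚb}
    (hμ : μ ^ p = 1) : φ μ = μ ^ (q : ℕ) := by
  have e := GalRep.cyc_frobenius p q.2 (fun h => hqp (Subtype.ext h)) hA hφ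
  have h := GalRep.cyc_spec p φ (k := 1) μ (by rwa [pow_one])
  rw [h, e, map_natCast, ZMod.val_natCast, pow_one]
  exact (pow_eq_pow_mod _ hμ).symm

/-- **The Selmer bound at Taylor-Wiles level.**  For every depth there are `r` primes such that the
Selmer group cut out by conditions with the stated local sizes has at most the stated size. -/
theorem exists_taylorWiles_selmer (hp2 : p ≠ 2) (h : TW.TWHyp p R) (S₀ : Finset Nat.Primes)
    (hpS : (⟨p, Fact.out⟩ : Nat.Primes) ∈ S₀)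
    (hunr : ∀ q : Nat.Primes, q ∉ S₀ → ∀ A : ValuationSubring ℚb, A.LiesOverPrime (q : ℕ) →
      ∀ σ ∈ A.inertiaSubgroupIn ℚ, R σ = 1) (r₀ : ℕ) :
    ∃ T₀ : Finset Nat.Primes, S₀ ⊆ T₀ ∧ ∃ r, r₀ ≤ r ∧ ∀ n, ∃ Q : Finset Nat.Primes,
      Q.card = r ∧ Disjoint Q T₀ ∧ (∀ q ∈ Q, IsTWPrime p R n q) ∧
      ∀ (L : ∀ v : Place, AddSubgroup ((LD v).Z1 (Ad0 R))),
        (∀ v, ((LD v).B1 (Ad0 R)).addSubgroupOf ((LD v).Z1 (Ad0 R)) ≤ L v) →
        (∀ q ∈ Q, L (some q) = ⊤) → ∀ d e : Nat.Primes → ℕ,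
        (∀ q ∈ T₀, cardClasses (Ad0 R) (some q) (L (some q)) * Nat.card k ^ d q ≤
          Nat.card ((LD (some q)).fixed (Ad0 R)) * Nat.card k ^ e q) →
        Finite (selmerClasses (T₀ ∪ Q) (Ad0 R) L) ∧
          Nat.card (selmerClasses (T₀ ∪ Q) (Ad0 R) L) * Nat.card k ^ (1 + ∑ q ∈ T₀, d q) ≤
            Nat.card k ^ (r + ∑ q ∈ T₀, e q) := by
  classical
  obtain ⟨D⟩ := exists_classData p hp2
  obtain ⟨F, hFd, hF⟩ := h.finite_level
  obtain ⟨N₀, hN₀, hμ, hR⟩ := exists_level_ker hpS R ⟨F, hFd, hF⟩ hunr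
  obtain ⟨T₀, hST, hbig⟩ := exists_isBig S₀ N₀ hN₀
  have hN : (LT T₀).IsLevel N₀ := isLevel_mono hST hN₀
  obtain ⟨r, hr, hr'⟩ := exists_killing_primes (T := T₀) hp2 h (hST hpS) hN hμ
    (hbig T₀ le_rfl) hR r₀
  refine ⟨T₀, hST, r, hr, fun n => ?_⟩
  obtain ⟨Q, hQc, hQd, hQP, hkill⟩ := hr' n
  refine ⟨Q, hQc, hQd, hQP, fun L hL hQfull d e hbd => ?_⟩
  set K := Nat.card k with hK
  set T := T₀ ∪ Q with hT
  have hpT : (⟨p, Fact.out⟩ : Nat.Primes) ∈ T := Finset.mem_union_left _ (hST hpS)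
  have hNT : (LT T).IsLevel N₀ := isLevel_mono Finset.subset_union_left hN
  have hMN : ∀ s : (LT T).G, s ∈ N₀ → ∀ m : Ad0 R, s • m = m :=
    fun s hs m => Ad0.smul_eq_self (hR s hs) m
  have hsm : ∀ v, (LD v).Smooth (Ad0 R) := smooth_local (T := T) hNT hMN
  have hGW : Finite (selmerClasses T (Ad0 R) L) ∧
      Nat.card (selmerClasses T (Ad0 R) L) *
          Nat.card {φ : Ad0 R →+ Additive ℚbˣ // ∀ (g : GQ) m, φ (g • m) = g • φ m} *
          ∏ v ∈ placesOf T, cardClasses (Ad0 R) v ⊤ =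
        Nat.card {m : Ad0 R // ∀ g : GQ, g • m = m} *
          (∏ v ∈ placesOf T, Nat.card ((LD v).HomC (Ad0 R) (Additive ℚbˣ))) *
          ∏ v ∈ placesOf T, cardClasses (Ad0 R) v (L v) := greenberg_wiles hp2 D hpT Ad0.nsmul_eq_zero N₀ hNT hμ
    (hbig T Finset.subset_union_left) hMN L hL Q
    ⟨Finset.subset_union_right, hQfull, hkill⟩
  obtain ⟨hfin, heq⟩ := hGW
  refine ⟨hfin, ?_⟩
  haveI := finite_dual h
  haveI : Unique {m : Ad0 R // ∀ g : GQ, g • m = m} :=
    ⟨⟨⟨0, fun g => smul_zero g⟩⟩, fun m => Subtype.ext (eq_zero_of_fixed h m.2)⟩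
  rw [Nat.card_unique (α := {m : Ad0 R // ∀ g : GQ, g • m = m}), one_mul] at heq
  rw [placesOf, Finset.prod_insertNone, Finset.prod_insertNone, Finset.prod_insertNone] at heq
  have c1 : cardClasses (Ad0 R) none ⊤ = 1 :=
    cardClasses_none_eq_one hp2 Ad0.nsmul_eq_zero (hsm none) ⊤ le_top
  have c2 : cardClasses (Ad0 R) none (L none) = 1 :=
    cardClasses_none_eq_one hp2 Ad0.nsmul_eq_zero (hsm none) (L none) (hL none)
  simp only [c1, c2, one_mul] at heq
  set h0 : Nat.Primes → ℕ := fun q => Nat.card ((LD (some q)).fixed (Ad0 R)) with hh0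
  set H : Nat.Primes → ℕ := fun q => Nat.card ((LD (some q)).HomC (Ad0 R) (Additive ℚbˣ)) with hH
  have htop : ∀ q, cardClasses (Ad0 R) (some q) ⊤ =
      h0 q * H q * (if (q : ℕ) = p then K ^ 3 else 1) := fun q => by
    refine (card_local_classes hp2 q Ad0.nsmul_eq_zero (hsm _)).trans ?_
    rw [card_ad0]
    rfl
  have hH0 : ∀ q, 0 < H q := fun q => by
    haveI := finite_homC h (some q)
    exact Nat.card_pos
  have hh0pos : ∀ q, 0 < h0 q := fun q => by
    haveI : Nonempty ((LD (some q)).fixed (Ad0 R)) := ⟨⟨0, fun g => smul_zero g⟩⟩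
    exact Nat.card_pos
  have hp3 : ∏ q ∈ T, (if (q : ℕ) = p then K ^ 3 else 1) = K ^ 3 := by
    refine (Finset.prod_eq_single_of_mem (⟨p, Fact.out⟩ : Nat.Primes) hpT
      (fun q _ hq => if_neg fun e => hq (Subtype.ext e))).trans (if_pos rfl)
  have hQle : ∀ q ∈ Q, H q ≤ K := fun q hq => by
    obtain ⟨φ, hφ⟩ := Galois.exists_isFrobeniusAt (A := placeAt q) q.2 (placeAt_liesOverPrime q)
    obtain ⟨α, β, hab, hchar⟩ := (hQP q hq).2 _ (placeAt_liesOverPrime q) φ hφ
    have hqp : q ≠ ⟨p, Fact.out⟩ := fun e => Finset.disjoint_left.mp hQd hq (e ▸ hST hpS)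
    refine card_homC_some_le h q hφ.mem_decompositionSubgroup ?_ fun a ha => ?_
    · rw [h.det_cyclotomic φ ((q : ℕ)) fun μ hμ => ?_]
      · have hd : p ∣ (q : ℕ) - 1 := (dvd_pow_self p n.succ_ne_zero).trans (hQP q hq).1
        obtain ⟨c, hc⟩ := hd
        rw [show (q : ℕ) = p * c + 1 by have := q.2.pos; omega, Nat.cast_add, Nat.cast_mul,
          CharP.cast_eq_zero, zero_mul, zero_add, Nat.cast_one]
      · exact frobenius_apply_mu hqp (placeAt_liesOverPrime q) hφ hμ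
    · rw [ha, Matrix.charpoly_fin_two, Matrix.trace_smul, Matrix.trace_one, Matrix.det_smul,
        Matrix.det_one, Fintype.card_fin, mul_one, Nat.cast_ofNat, smul_eq_mul] at hchar
      have h1 := congrArg (Polynomial.eval α) hchar
      have h2 := congrArg (Polynomial.eval β) hchar
      simp at h1 h2
      exact hab (by rw [(pow_eq_zero_iff two_ne_zero).mp (by linear_combination h1 :
        (α - a) ^ 2 = 0) |> sub_eq_zero.mp, (pow_eq_zero_iff two_ne_zero).mp (by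
        linear_combination h2 : (β - a) ^ 2 = 0) |> sub_eq_zero.mp])
  have hL' : ∀ q ∈ T, cardClasses (Ad0 R) (some q) (L (some q)) * K ^ (if q ∈ T₀ then d q else 0)
      ≤ h0 q * K ^ (if q ∈ T₀ then e q else 1) := by
    intro q hq
    by_cases hq0 : q ∈ T₀
    · rw [if_pos hq0, if_pos hq0]; exact hbd q hq0
    · have hqQ : q ∈ Q := (Finset.mem_union.mp hq).resolve_left hq0
      rw [if_neg hq0, if_neg hq0, pow_zero, mul_one, pow_one, hQfull q hqQ]
      refine (htop q).trans_le ?_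
      rw [if_neg (fun e => hq0 (by
          rw [show q = ⟨p, Fact.out⟩ from Subtype.ext e]; exact hST hpS)), mul_one]
      exact Nat.mul_le_mul le_rfl (hQle q hqQ)
  have hsum : ∀ f : Nat.Primes → ℕ, ∀ c, ∑ q ∈ T, (if q ∈ T₀ then f q else c) =
      (∑ q ∈ T₀, f q) + c * Q.card := fun f c => by
    rw [hT, Finset.sum_union hQd.symm, Finset.sum_congr rfl fun q hq => if_pos hq,
      Finset.sum_congr rfl (fun q hq => if_neg (Finset.disjoint_left.mp hQd hq)),
      Finset.sum_const, smul_eq_mul, mul_comm]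
  have hprod := Finset.prod_le_prod (fun q _ => Nat.zero_le _) hL'
  rw [Finset.prod_mul_distrib, Finset.prod_mul_distrib, Finset.prod_pow_eq_pow_sum,
    Finset.prod_pow_eq_pow_sum, hsum, hsum, zero_mul, add_zero, one_mul, hQc] at hprod
  rw [Finset.prod_congr rfl (fun q _ => htop q), Finset.prod_mul_distrib, Finset.prod_mul_distrib,
    hp3] at heq
  set D' := Nat.card {φ : Ad0 R →+ Additive ℚbˣ // ∀ (g : GQ) m, φ (g • m) = g • φ m} with hD'
  have hD : 1 ≤ D' := by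
    haveI : Nonempty {φ : Ad0 R →+ Additive ℚbˣ // ∀ (g : GQ) m, φ (g • m) = g • φ m} :=
      ⟨⟨0, fun g m => (smul_zero g).symm⟩⟩
    exact Nat.card_pos
  set S := Nat.card (selmerClasses T (Ad0 R) L) with hS
  set A := ∏ q ∈ T, cardClasses (Ad0 R) (some q) (L (some q)) with hA
  set P0 := ∏ q ∈ T, h0 q with hP0
  set PH := ∏ q ∈ T, H q with hPH
  set Hi := Nat.card ((LD none).HomC (Ad0 R) (Additive ℚbˣ)) with hHi
  have hPHpos : 0 < PH := Finset.prod_pos fun q _ => hH0 q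
  have hP0pos : 0 < P0 := Finset.prod_pos fun q _ => hh0pos q
  have hHile : Hi ≤ K ^ 2 := card_homC_none_le h
  have e1 : S * D' * (P0 * K ^ 3) = Hi * A := Nat.eq_of_mul_eq_mul_right hPHpos (by
    linear_combination heq)
  have hKpos : 0 < K := Nat.card_pos
  refine Nat.le_of_mul_le_mul_right ?_ (Nat.mul_pos hP0pos (pow_pos hKpos 2))
  calc S * K ^ (1 + ∑ q ∈ T₀, d q) * (P0 * K ^ 2)
      ≤ S * D' * K ^ (1 + ∑ q ∈ T₀, d q) * (P0 * K ^ 2) := by
        gcongr; exact Nat.le_mul_of_pos_right _ hD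
    _ = Hi * (A * K ^ (∑ q ∈ T₀, d q)) := by
        rw [← mul_assoc Hi, ← e1, pow_add]; ring
    _ ≤ K ^ 2 * (P0 * K ^ ((∑ q ∈ T₀, e q) + r)) := Nat.mul_le_mul hHile hprod
    _ = K ^ (r + ∑ q ∈ T₀, e q) * (P0 * K ^ 2) := by rw [add_comm r]; ring

end Fermat.Agent.GD
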