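import Fermat.Agent.GD.GW.Ad0Selmer
import Fermat.Agent.Mazur3.Descent.Tame
import Fermat.Agent.FlatBound.Local.Gen

/-!
# Local sizes of the standard conditions on the adjoint module
-/

set_option autoImplicit false

noncomputable section

namespace Fermat.Agent.GD

open Fermat.Agent.Galois (GQ)
open Matrix

local notation "ℚb" => AlgebraicClosure ℚ

variable {k : Type} [Field k] {R : GQ →* Matrix (Fin 2) (Fin 2) k}
variable {M : Type} [AddCommGroup M] [DistribMulAction GQ M]

local instance (v : Place) : DistribMulAction (LD v).G M :=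
  inferInstanceAs (DistribMulAction (decomp v) M)

variable {p : ℕ} [Fact p.Prime]

theorem b1_le_z1 {v : Place} (hM : (LD v).Smooth M) : (LD v).B1 M ≤ (LD v).Z1 M := by
  rintro _ ⟨m, rfl⟩
  obtain ⟨N, hN, hm⟩ := hM m
  refine ⟨⟨N, hN, fun g s hs => ?_⟩, fun g h => ?_⟩
  · show (g * s) • m - m = g • m - m
    rw [mul_smul, hm s hs]
  · show (g * h) • m - m = g • m - m + g • (h • m - m)
    rw [mul_smul, smul_sub]
    abel

/-- The classes in a subgroup, through cocycles. -/
theorem cardClasses_mul_card [Finite M] {v : Place} (hM : (LD v).Smooth M)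
    (L : AddSubgroup ((LD v).Z1 M)) (hL : ((LD v).B1 M).addSubgroupOf ((LD v).Z1 M) ≤ L) :
    cardClasses M v L * Nat.card M = Nat.card ((LD v).fixed M) * Nat.card L := by
  have h1 : Nat.card L = cardClasses M v L * Nat.card ((LD v).B1 M) := by
    rw [AddSubgroup.card_eq_card_quotient_mul_card_addSubgroup
        ((((LD v).B1 M).addSubgroupOf ((LD v).Z1 M)).addSubgroupOf L),
      Nat.card_congr (AddSubgroup.addSubgroupOfEquivOfLe hL).toEquiv,
      Nat.card_congr (AddSubgroup.addSubgroupOfEquivOfLe (b1_le_z1 hM)).toEquiv]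
    rfl
  have h2 : Nat.card ((LD v).fixed M) * Nat.card ((LD v).B1 M) = Nat.card M := by
    refine Eq.trans ?_ (card_ker_mul_range ((LD v).d₀ M))
    congr 1
    refine Nat.card_congr (Equiv.subtypeEquivRight fun m => ?_)
    exact ⟨fun h => funext fun g => sub_eq_zero.mpr (h g),
      fun h g => sub_eq_zero.mp (congrFun h g)⟩
  rw [h1, ← h2]
  ring

theorem finite_z1 (hp2 : p ≠ 2) [Finite M] (hp : ∀ m : M, p • m = 0) {v : Place}
    (hM : (LD v).Smooth M) : Finite ((LD v).Z1 M) := by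
  haveI : Finite ((LD v).Z1 M ⧸ ((LD v).B1 M).addSubgroupOf ((LD v).Z1 M)) :=
    finite_h1_local hp2 hp hM
  haveI : Finite (((LD v).B1 M).addSubgroupOf ((LD v).Z1 M)) := by
    haveI : Finite ((LD v).B1 M) :=
      Finite.of_surjective ((LD v).d₀ M).rangeRestrict ((LD v).d₀ M).rangeRestrict_surjective
    exact Finite.of_equiv _ (AddSubgroup.addSubgroupOfEquivOfLe (b1_le_z1 hM)).symm.toEquiv
  exact Finite.of_addSubgroup_quotient (((LD v).B1 M).addSubgroupOf ((LD v).Z1 M))

theorem cardClasses_le_of_card [Finite M] {v : Place} (hM : (LD v).Smooth M)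
    (L : AddSubgroup ((LD v).Z1 M)) (hL : ((LD v).B1 M).addSubgroupOf ((LD v).Z1 M) ≤ L) {c : ℕ}
    (hc : Nat.card L ≤ Nat.card M * c) :
    cardClasses M v L ≤ Nat.card ((LD v).fixed M) * c := by
  have h := cardClasses_mul_card hM L hL
  refine Nat.le_of_mul_le_mul_right ?_ (Nat.card_pos (α := M))
  rw [h]
  calc Nat.card ((LD v).fixed M) * Nat.card L
      ≤ Nat.card ((LD v).fixed M) * (Nat.card M * c) := Nat.mul_le_mul le_rfl hc
    _ = _ := by ring

/-- Only the coboundaries: one class. -/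
theorem cardClasses_bot (v : Place) :
    cardClasses M v (((LD v).B1 M).addSubgroupOf ((LD v).Z1 M)) = 1 :=
  AddSubgroup.relIndex_self _

/-- A cocycle is constant modulo a finite level. -/
theorem exists_field_of_z1 {v : Place} (x : (LD v).Z1 M) :
    ∃ F : IntermediateField ℚ ℚb, FiniteDimensional ℚ F ∧
      ∀ d s : decomp v, (∀ z ∈ F, (s : GQ) z = z) → x.1 (d * s : decomp v) = x.1 (d : decomp v) := by
  obtain ⟨N, ⟨N', ⟨F, hF, rfl, -⟩, rfl⟩, hN⟩ := x.2.1
  exact ⟨F, hF, fun d s hs => hN d s ((IntermediateField.mem_fixingSubgroup_iff _ _).mpr hs)⟩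

theorem z1_mul {v : Place} (x : (LD v).Z1 M) (a b : decomp v) :
    x.1 (a * b : decomp v) = x.1 a + (a : GQ) • x.1 b := x.2.2 a b

theorem z1_one {v : Place} (x : (LD v).Z1 M) : x.1 (1 : decomp v) = 0 := by
  have e := z1_mul x 1 1
  rw [OneMemClass.coe_one, one_smul] at e
  have e1 : x.1 ((1 : decomp v) * 1 : decomp v) = x.1 (1 : decomp v) :=
    congrArg x.1 (mul_one (1 : decomp v))
  exact right_eq_add.mp (e1.symm.trans e)

theorem z1_pow_of_zero {v : Place} (x : (LD v).Z1 M) {d : decomp v} (hd : x.1 d = 0) :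
    ∀ n : ℕ, x.1 (d ^ n : decomp v) = 0
  | 0 => by rw [pow_zero]; exact z1_one x
  | n + 1 => by rw [pow_succ, z1_mul, z1_pow_of_zero x hd n, hd, smul_zero, add_zero]

/-- A cocycle vanishing at a Frobenius element and on inertia vanishes on the decomposition
group. -/
theorem z1_eq_zero {q : Nat.Primes} (x : (LD (some q)).Z1 M) {φ : decomp (some q)}
    (hφ : (placeAt q).IsFrobeniusAt (φ : GQ) q) (hxφ : x.1 φ = 0)
    (hI : ∀ d : decomp (some q), (d : GQ) ∈ (placeAt q).inertiaSubgroupIn ℚ → x.1 d = 0) :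
    x = 0 := by
  obtain ⟨F, hF, hx⟩ := exists_field_of_z1 x
  haveI := hF
  haveI : Fact (q : ℕ).Prime := ⟨q.2⟩
  refine Subtype.ext (funext fun (d : decomp (some q)) => ?_)
  show x.1 d = 0
  obtain ⟨n, τ, hτ, hd⟩ := FlatBound.exists_pow_mul_inertia (p := (q : ℕ))
    (placeAt_liesOverPrime q) hφ F (σ := ((d : decomp (some q)) : GQ)) (d : decomp (some q)).2
  have hτD : τ ∈ decomp (some q) := by obtain ⟨t, -, rfl⟩ := hτ; exact t.2
  let e : decomp (some q) := φ ^ n * ⟨τ, hτD⟩
  have he : x.1 e = 0 := by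
    rw [z1_mul, z1_pow_of_zero x hxφ, hI ⟨τ, hτD⟩ hτ, smul_zero, add_zero]
  have key := hx e (e⁻¹ * (d : decomp (some q))) fun z hz => by
    show ((e : GQ)⁻¹ * (d : GQ)) z = z
    rw [AlgEquiv.mul_apply, hd z hz]
    show ((φ : GQ) ^ n * τ)⁻¹ (((φ : GQ) ^ n * τ) z) = z
    exact ((φ : GQ) ^ n * τ).symm_apply_apply z
  rw [mul_inv_cancel_left] at key
  rw [key, he]

/-- Cocycles trivial on inertia. -/
def unramCond (M : Type) [AddCommGroup M] [DistribMulAction GQ M] (q : Nat.Primes) :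
    AddSubgroup ((LD (some q)).Z1 M) where
  carrier := {x | ∀ d : decomp (some q), (d : GQ) ∈ (placeAt q).inertiaSubgroupIn ℚ → x.1 d = 0}
  zero_mem' _ _ := rfl
  add_mem' := fun {a b} ha hb d hd => by
    show a.1 d + b.1 d = 0
    rw [ha d hd, hb d hd, add_zero]
  neg_mem' := fun {a} ha d hd => by
    show -a.1 d = 0
    rw [ha d hd, neg_zero]

theorem b1_le_unramCond {q : Nat.Primes}
    (htriv : ∀ σ ∈ (placeAt q).inertiaSubgroupIn ℚ, ∀ m : M, σ • m = m) :
    ((LD (some q)).B1 M).addSubgroupOf ((LD (some q)).Z1 M) ≤ unramCond M q := by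
  rintro x ⟨m, hm⟩ d hd
  refine (congrFun hm d).symm.trans (sub_eq_zero.mpr ?_)
  exact htriv _ hd m

theorem cardClasses_unram_le (hp2 : p ≠ 2) [Finite M] (hp : ∀ m : M, p • m = 0) {q : Nat.Primes}
    (hM : (LD (some q)).Smooth M)
    (htriv : ∀ σ ∈ (placeAt q).inertiaSubgroupIn ℚ, ∀ m : M, σ • m = m) :
    cardClasses M (some q) (unramCond M q) ≤ Nat.card ((LD (some q)).fixed M) := by
  haveI := finite_z1 hp2 hp hM
  obtain ⟨φ, hφ⟩ := Galois.exists_isFrobeniusAt (A := placeAt q) q.2 (placeAt_liesOverPrime q)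
  let φ' : decomp (some q) := ⟨φ, hφ.mem_decompositionSubgroup⟩
  have h := cardClasses_le_of_card hM (unramCond M q) (b1_le_unramCond htriv) (c := 1) (by
    rw [mul_one]
    refine Nat.card_le_card_of_injective (fun x : unramCond M q => x.1.1 φ') fun x y e => ?_
    refine Subtype.ext (sub_eq_zero.mp (z1_eq_zero (x.1 - y.1) (φ := φ') hφ ?_ (x - y).2))
    show x.1.1 φ' - y.1.1 φ' = 0
    rw [sub_eq_zero]
    exact e)
  rwa [mul_one] at h

/-- Cocycles of unipotent type on inertia. -/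
def unipCond (R : GQ →* Matrix (Fin 2) (Fin 2) k) (q : Nat.Primes) :
    AddSubgroup ((LD (some q)).Z1 (Ad0 R)) where
  carrier := {x | ∀ d : decomp (some q), (d : GQ) ∈ (placeAt q).inertiaSubgroupIn ℚ →
    (Ad0.mat (x.1 d) * R d).trace = 0}
  zero_mem' _ _ := by
    show (Ad0.mat (0 : Ad0 R) * _).trace = 0
    rw [map_zero, zero_mul, Matrix.trace_zero]
  add_mem' := fun {a b} ha hb d hd => by
    show (Ad0.mat (a.1 d + b.1 d) * _).trace = 0
    rw [map_add, add_mul, Matrix.trace_add, ha d hd, hb d hd, add_zero]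
  neg_mem' := fun {a} ha d hd => by
    show (Ad0.mat (-a.1 d) * _).trace = 0
    rw [map_neg, neg_mul, Matrix.trace_neg, ha d hd, neg_zero]

theorem b1_le_unipCond (q : Nat.Primes) :
    ((LD (some q)).B1 (Ad0 R)).addSubgroupOf ((LD (some q)).Z1 (Ad0 R)) ≤ unipCond R q := by
  rintro x ⟨m, hm⟩ d -
  rw [← show ((d : GQ) • m - m) = x.1 d from congrFun hm d, map_sub, Ad0.mat_smul, sub_mul,
    Matrix.trace_sub, mul_assoc, TW.rep_inv_mul, mul_one, Matrix.trace_mul_comm, sub_self]

theorem eq_one_of_unipotent_pow [CharP k p] {B : Matrix (Fin 2) (Fin 2) k}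
    (hB : (B - 1) * (B - 1) = 0) {n : ℕ} (hn : n.Coprime p) (h : B ^ n = 1) : B = 1 := by
  have hpw : ∀ i : ℕ, B ^ i = 1 + (i : k) • (B - 1) := by
    intro i
    induction i with
    | zero => simp
    | succ i ih =>
      rw [pow_succ', ih, mul_add, mul_one, Matrix.mul_smul, Nat.cast_succ, add_smul, one_smul,
        show B * (B - 1) = (B - 1) by
          have := sub_mul B 1 (B - 1); rw [hB, one_mul] at this; exact (sub_eq_zero.mp this.symm)]
      abel
  have hp1 : B ^ p = 1 := by rw [hpw, CharP.cast_eq_zero, zero_smul, add_zero]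
  have := pow_gcd_eq_one.mpr ⟨h, hp1⟩
  rwa [show Nat.gcd n p = 1 from hn, pow_one] at this

theorem cardClasses_unip_le (hp2 : p ≠ 2) [Finite k] [CharP k p] (h : TW.TWHyp p R) {q : Nat.Primes}
    (hqp : (q : ℕ) ≠ p) (hM : (LD (some q)).Smooth (Ad0 R))
    (hsq : ∀ σ ∈ (placeAt q).inertiaSubgroupIn ℚ, (R σ - 1) * (R σ - 1) = 0)
    (hne : ∃ σ ∈ (placeAt q).inertiaSubgroupIn ℚ, R σ ≠ 1) :
    cardClasses (Ad0 R) (some q) (unipCond R q) ≤ Nat.card ((LD (some q)).fixed (Ad0 R)) := by
  haveI := finite_z1 hp2 Ad0.nsmul_eq_zero hM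
  have h2 := TW.two_ne_zero_of_twHyp h
  -- a common level
  choose Fx hFx hFx' using fun x : (LD (some q)).Z1 (Ad0 R) => exists_field_of_z1 x
  obtain ⟨FR, hFR, hFR'⟩ := h.finite_level
  haveI : Normal ℚ ℚb := IsGalois.to_normal
  haveI := hFR
  haveI : FiniteDimensional ℚ (⨆ x, Fx x : IntermediateField ℚ ℚb) :=
    IntermediateField.finiteDimensional_iSup_of_finite
  let F : IntermediateField ℚ ℚb :=
    IntermediateField.normalClosure ℚ ((⨆ x, Fx x) ⊔ FR : IntermediateField ℚ ℚb) ℚb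
  haveI : FiniteDimensional ℚ F := normalClosure.is_finiteDimensional ℚ _ ℚb
  haveI : Normal ℚ F := normalClosure.normal ℚ _ ℚb
  haveI : IsGalois ℚ F := ⟨⟩
  have hF : ((⨆ x, Fx x) ⊔ FR : IntermediateField ℚ ℚb) ≤ F := IntermediateField.le_normalClosure _
  obtain ⟨s, hs, r, hr, hrη, hs1⟩ :=
    Mazur3.exists_tame_moving (η := p) (B := placeAt q) q.2 hqp (placeAt_liesOverPrime q)
  obtain ⟨τ, hτ, hgen⟩ := Mazur3.exists_inertia_gen (η := p) (B := placeAt q) q.2
    (placeAt_liesOverPrime q) hs hr hrη hs1 F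
  have hIdec : ∀ {σ : GQ}, σ ∈ (placeAt q).inertiaSubgroupIn ℚ → σ ∈ decomp (some q) := by
    rintro _ ⟨t, -, rfl⟩; exact t.2
  have hRw : ∀ σ ∈ (placeAt q).inertiaSubgroupIn ℚ, ∃ n j : ℕ,
      R (σ * (τ ^ n)⁻¹) = 1 ∧ ∀ z ∈ F, ((σ * (τ ^ n)⁻¹) ^ (q : ℕ) ^ j) z = z := by
    intro σ hσ
    obtain ⟨n, j, hj, -⟩ := hgen σ hσ
    refine ⟨n, j, eq_one_of_unipotent_pow (p := p) (hsq _ (mul_mem hσ (inv_mem (pow_mem hτ n))))
      (((Nat.coprime_primes q.2 Fact.out).mpr hqp).pow_left j) ?_, hj⟩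
    rw [← map_pow]
    exact hFR' _ fun z hz => hj z (hF (le_sup_right (a := ⨆ x, Fx x) hz))
  have hτns : ∀ a : k, R τ ≠ a • 1 := by
    intro a ha
    have hsq' := hsq τ hτ
    rw [ha, show a • (1 : Matrix (Fin 2) (Fin 2) k) - 1 = (a - 1) • 1 by rw [sub_smul, one_smul],
      Matrix.smul_mul, one_mul, smul_smul] at hsq'
    have ha1 : a = 1 := by
      have := congrFun (congrFun hsq' 0) 0
      simpa [sub_eq_zero] using this
    rw [ha1, one_smul] at ha
    obtain ⟨σ, hσ, hσ1⟩ := hne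
    obtain ⟨n, j, hw, -⟩ := hRw σ hσ
    refine hσ1 ?_
    rw [show σ = σ * (τ ^ n)⁻¹ * τ ^ n by group, map_mul, hw, map_pow, ha, one_pow, one_mul]
  let τ' : decomp (some q) := ⟨τ, hIdec hτ⟩
  obtain ⟨φ, hφ⟩ := Galois.exists_isFrobeniusAt (A := placeAt q) q.2 (placeAt_liesOverPrime q)
  let φ' : decomp (some q) := ⟨φ, hφ.mem_decompositionSubgroup⟩
  -- a condition vanishing at `τ` vanishes on inertia
  have hinert : ∀ z : (LD (some q)).Z1 (Ad0 R), z.1 τ' = 0 →
      ∀ d : decomp (some q), (d : GQ) ∈ (placeAt q).inertiaSubgroupIn ℚ → z.1 d = 0 := by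
    intro z hz d hd
    obtain ⟨n, j, hw, hj⟩ := hRw _ hd
    let w : decomp (some q) := d * (τ' ^ n)⁻¹
    have hwR : R (w : GQ) = 1 := hw
    have hwn : ∀ i : ℕ, z.1 (w ^ i : decomp (some q)) = i • z.1 w := by
      intro i
      induction i with
      | zero => rw [pow_zero, zero_smul]; exact z1_one z
      | succ i ih =>
        rw [pow_succ, z1_mul, ih, succ_nsmul,
          Ad0.smul_eq_self (by rw [SubmonoidClass.coe_pow, map_pow, hwR, one_pow])]
    have hwj : z.1 (w ^ (q : ℕ) ^ j : decomp (some q)) = 0 := by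
      have e := hFx' z 1 (w ^ (q : ℕ) ^ j) fun y hy => by
        rw [SubmonoidClass.coe_pow]
        exact hj y (hF (le_sup_left (b := FR) (le_iSup Fx z hy)))
      rw [one_mul, z1_one z] at e
      exact e
    rw [hwn] at hwj
    have hw0 : z.1 w = 0 := by
      obtain ⟨a, b, hab⟩ := Nat.isCoprime_iff_coprime.mpr
        (((Nat.coprime_primes q.2 Fact.out).mpr hqp).pow_left j)
      have e : z.1 w = (a * ((q : ℕ) ^ j : ℕ) + b * p : ℤ) • z.1 w := by rw [hab, one_smul]
      rw [e, add_smul, mul_smul, mul_smul, natCast_zsmul, natCast_zsmul, hwj,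
        Ad0.nsmul_eq_zero, smul_zero, smul_zero, add_zero]
    have e : d = w * τ' ^ n := (inv_mul_cancel_right d (τ' ^ n)).symm
    rw [e, z1_mul, hw0, z1_pow_of_zero z hz, smul_zero, add_zero]
  let f : unipCond R q →+ Ad0 R :=
    AddMonoidHom.mk' (fun x => x.1.1 τ') fun _ _ => rfl
  refine (cardClasses_le_of_card hM (unipCond R q) (b1_le_unipCond q) (c := 1) ?_).trans_eq
    (mul_one _)
  rw [mul_one, card_ad0, ← card_ker_mul_range f, pow_succ' (Nat.card k)]
  refine Nat.mul_le_mul ((le_trans ?_ (card_commutant_le h2 hτns))) (le_trans ?_ (card_orth_le hτns))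
  · refine Nat.card_le_card_of_injective (fun x => ⟨x.1.1.1 φ', ?_⟩) fun x y e => ?_
    · have hz : x.1.1.1 τ' = 0 := x.2
      let τ'' : decomp (some q) := φ'⁻¹ * τ' * φ'
      have hτ'' : x.1.1.1 τ'' = 0 := hinert _ hz τ'' (by
        obtain ⟨t, ht, hte⟩ := hτ
        let φd : (placeAt q).decompositionSubgroup ℚ := ⟨φ, hφ.mem_decompositionSubgroup⟩
        refine ⟨φd⁻¹ * t * φd, ?_, ?_⟩
        · have e : φd⁻¹ * t * φd = φd⁻¹ * t * φd⁻¹⁻¹ := by rw [inv_inv]
          rw [e]
          exact (MonoidHom.normal_ker _).conj_mem t ht φd⁻¹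
        · show _ = (φ : GQ)⁻¹ * τ * φ
          rw [← hte]; rfl)
      have e1 : x.1.1.1 (τ' * φ' : decomp (some q)) = x.1.1.1 (φ' * τ'' : decomp (some q)) :=
        congrArg x.1.1.1 (show τ' * φ' = φ' * (φ'⁻¹ * τ' * φ') by group)
      rw [z1_mul, z1_mul, hz, hτ'', smul_zero, add_zero, zero_add] at e1
      have e2 := congrArg Ad0.mat e1
      rw [Ad0.mat_smul] at e2
      show Ad0.mat (x.1.1.1 φ') * R τ = R τ * Ad0.mat (x.1.1.1 φ')
      conv_lhs => rw [← e2, mul_assoc, TW.rep_inv_mul, mul_one]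
    · refine Subtype.ext (Subtype.ext (sub_eq_zero.mp ?_))
      have hxy : (x.1.1 - y.1.1).1 τ' = 0 := by
        show x.1.1.1 τ' - y.1.1.1 τ' = 0
        rw [show x.1.1.1 τ' = 0 from x.2, show y.1.1.1 τ' = 0 from y.2, sub_zero]
      refine z1_eq_zero _ (φ := φ') hφ ?_ (hinert _ hxy)
      show x.1.1.1 φ' - y.1.1.1 φ' = 0
      rw [sub_eq_zero]
      exact Ad0.mat_injective (congrArg (fun z => z.1.1) e)
  · refine Nat.card_le_card_of_injective (fun x => ⟨x.1, ?_⟩)
      fun x y e => Subtype.ext (congrArg (fun z => z.1) e)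
    obtain ⟨z, hz⟩ := x.2
    have e := z.2 τ' hτ
    rw [← hz]
    exact e

/-- Restriction of a matrix valued function to a decomposition group. -/
def resFun (q : Nat.Primes) (c : GQ → Matrix (Fin 2) (Fin 2) k) :
    decomp (some q) → Matrix (Fin 2) (Fin 2) k := fun d => c d

/-- The differential of a trace zero matrix on a decomposition group. -/
def adCobound (R : GQ →* Matrix (Fin 2) (Fin 2) k) (q : Nat.Primes) (m : sl2 k) :
    decomp (some q) → Matrix (Fin 2) (Fin 2) k := fun d => R d * m.1 * R (d : GQ)⁻¹ - m.1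

/-- A cocycle as a matrix valued function. -/
def matFun (q : Nat.Primes) :
    (LD (some q)).Z1 (Ad0 R) →+ (decomp (some q) → Matrix (Fin 2) (Fin 2) k) where
  toFun x d := Ad0.mat (x.1 d)
  map_zero' := funext fun _ => map_zero _
  map_add' _ _ := funext fun _ => map_add _ _ _

theorem matFun_injective (q : Nat.Primes) : Function.Injective (matFun (R := R) q) := fun _ _ e =>
  Subtype.ext (funext fun d => Ad0.mat_injective (congrFun e d))

/-- The condition spanned by the restrictions of a set of global functions. -/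
def spanCond (R : GQ →* Matrix (Fin 2) (Fin 2) k) (q : Nat.Primes)
    (P : Set (GQ → Matrix (Fin 2) (Fin 2) k)) : AddSubgroup ((LD (some q)).Z1 (Ad0 R)) :=
  (Submodule.span k (resFun q '' P ∪ Set.range (adCobound R q))).toAddSubgroup.comap (matFun q)

theorem mem_spanCond {q : Nat.Primes} {P : Set (GQ → Matrix (Fin 2) (Fin 2) k)}
    {x : (LD (some q)).Z1 (Ad0 R)} :
    x ∈ spanCond R q P ↔
      matFun q x ∈ Submodule.span k (resFun q '' P ∪ Set.range (adCobound R q)) := Iff.rfl

theorem b1_le_spanCond (q : Nat.Primes) (P : Set (GQ → Matrix (Fin 2) (Fin 2) k)) :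
    ((LD (some q)).B1 (Ad0 R)).addSubgroupOf ((LD (some q)).Z1 (Ad0 R)) ≤ spanCond R q P := by
  rintro x ⟨m, hm⟩
  refine mem_spanCond.mpr (Submodule.subset_span (Set.mem_union_right _ ⟨m, funext fun d => ?_⟩))
  show adCobound R q m d = Ad0.mat (x.1 d)
  rw [← show ((d : GQ) • m - m) = x.1 d from congrFun hm d, map_sub, Ad0.mat_smul]
  rfl

theorem cardClasses_span_le (hp2 : p ≠ 2) [Finite k] [CharP k p] {q : Nat.Primes}
    (hM : (LD (some q)).Smooth (Ad0 R)) (P : Set (GQ → Matrix (Fin 2) (Fin 2) k))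
    (hclosed : ∀ c ∈ P, ∀ m : sl2 k, (fun σ => c σ + (R σ * m.1 * R σ⁻¹ - m.1)) ∈ P)
    (hrank : ∀ (n : ℕ) (c : Fin n → GQ → Matrix (Fin 2) (Fin 2) k), (∀ i, c i ∈ P) →
      LinearIndependent k (fun i => resFun q (c i)) → n ≤ 4) :
    cardClasses (Ad0 R) (some q) (spanCond R q P) ≤
      Nat.card ((LD (some q)).fixed (Ad0 R)) * Nat.card k := by
  classical
  haveI := finite_z1 hp2 Ad0.nsmul_eq_zero hM
  refine cardClasses_le_of_card hM _ (b1_le_spanCond q P) ?_
  rw [card_ad0, ← pow_succ]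
  set W := Submodule.span k (resFun q '' P ∪ Set.range (adCobound R q)) with hW
  suffices hcard : Finite W ∧ Nat.card W ≤ Nat.card k ^ 4 by
    haveI := hcard.1
    refine le_trans (Nat.card_le_card_of_injective (fun x : spanCond R q P =>
      (⟨matFun q x.1, x.2⟩ : W)) fun x y e => ?_) hcard.2
    exact Subtype.ext (matFun_injective q (congrArg Subtype.val e))
  rcases P.eq_empty_or_nonempty with hP | ⟨c₀, hc₀⟩
  · let f : sl2 k →+ (decomp (some q) → Matrix (Fin 2) (Fin 2) k) :=
      AddMonoidHom.mk' (adCobound R q) fun m m' => funext fun d => by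
        show R d * (m.1 + m'.1) * R (d : GQ)⁻¹ - (m.1 + m'.1) = _
        rw [mul_add, add_mul]
        exact add_sub_add_comm _ _ _ _
    let V : Submodule k (decomp (some q) → Matrix (Fin 2) (Fin 2) k) :=
      { f.range with
        smul_mem' := by
          rintro a _ ⟨m, rfl⟩
          refine ⟨⟨a • m.1, mem_sl2.mpr (by rw [Matrix.trace_smul, mem_sl2.mp m.2, smul_zero])⟩,
            funext fun d => ?_⟩
          show R d * (a • m.1) * R (d : GQ)⁻¹ - a • m.1 = a • (R d * m.1 * R (d : GQ)⁻¹ - m.1)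
          rw [Matrix.mul_smul, Matrix.smul_mul, smul_sub] }
    have hle : W ≤ V := by
      rw [hW, hP, Set.image_empty, Set.empty_union, Submodule.span_le]
      rintro _ ⟨m, rfl⟩
      exact ⟨m, rfl⟩
    haveI : Finite f.range := Finite.of_surjective f.rangeRestrict f.rangeRestrict_surjective
    haveI : Finite V := ‹Finite f.range›
    refine ⟨Finite.of_injective (Submodule.inclusion hle) (Submodule.inclusion_injective hle), ?_⟩
    refine (Nat.card_le_card_of_injective _ (Submodule.inclusion_injective hle)).trans ?_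
    refine (Nat.card_le_card_of_surjective f.rangeRestrict f.rangeRestrict_surjective).trans ?_
    rw [card_sl2]
    exact Nat.pow_le_pow_right Nat.card_pos (by norm_num)
  · have hWeq : W = Submodule.span k (resFun q '' P) := by
      refine le_antisymm (Submodule.span_le.mpr (Set.union_subset Submodule.subset_span ?_))
        (Submodule.span_mono Set.subset_union_left)
      rintro _ ⟨m, rfl⟩
      rw [show adCobound R q m =
        resFun q (fun σ => c₀ σ + (R σ * m.1 * R σ⁻¹ - m.1)) - resFun q c₀ from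
          funext fun d => (add_sub_cancel_left _ _).symm]
      exact sub_mem (Submodule.subset_span ⟨_, hclosed c₀ hc₀ m, rfl⟩)
        (Submodule.subset_span ⟨c₀, hc₀, rfl⟩)
    obtain ⟨b, hb, hspan, hli⟩ := exists_linearIndependent k (resFun q '' P)
    have h4 : ∀ t : Finset (decomp (some q) → Matrix (Fin 2) (Fin 2) k), ↑t ⊆ b → t.card ≤ 4 := by
      intro t ht
      choose c hc hc' using fun i : Fin t.card => hb (ht (t.equivFin.symm i).2)
      refine hrank t.card c hc ?_
      simp only [hc']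
      exact hli.comp (fun i => (⟨_, ht (t.equivFin.symm i).2⟩ : b)) fun i j e =>
        t.equivFin.symm.injective (Subtype.ext (congrArg (fun z : b => z.1) e))
    have hbfin : b.Finite := by
      by_contra hinf
      obtain ⟨t, ht, htc⟩ := Set.Infinite.exists_subset_card_eq hinf 5
      have := h4 t ht
      omega
    obtain ⟨t, rfl⟩ : ∃ t : Finset (decomp (some q) → Matrix (Fin 2) (Fin 2) k), ↑t = b :=
      ⟨hbfin.toFinset, hbfin.coe_toFinset⟩
    rw [hWeq, ← hspan]
    haveI : FiniteDimensional k (Submodule.span k (t : Set (decomp (some q) → Matrix (Fin 2) (Fin 2) k))) :=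
      FiniteDimensional.span_finset k t
    haveI : Finite (Submodule.span k (t : Set (decomp (some q) → Matrix (Fin 2) (Fin 2) k))) :=
      Module.finite_of_finite k
    refine ⟨inferInstance, ?_⟩
    rw [Module.natCard_eq_pow_finrank (K := k)]
    exact Nat.pow_le_pow_right Nat.card_pos ((finrank_span_finset_le_card t).trans (h4 t le_rfl))

end Fermat.Agent.GD
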