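import Fermat.Agent.GD.GW.Surjective

/-!
# The exact sequence of invariant homomorphisms
-/

set_option autoImplicit false

noncomputable section

namespace Fermat.Agent.GD

open Fermat.Agent.Galois (GQ)

local notation "ℚb" => AlgebraicClosure ℚ

variable {p : ℕ} [Fact p.Prime] {T : Finset Nat.Primes}
variable {M : Type} [AddCommGroup M] [DistribMulAction GQ M]

local instance : DistribMulAction (LT T).G M := inferInstanceAs (DistribMulAction GQ M)

local instance (v : Place) : DistribMulAction (LD v).G M :=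
  inferInstanceAs (DistribMulAction (decomp v) M)

variable {N : Subgroup (LT T).G}

/-- Extension by zero of local homomorphisms. -/
def extHom (φ : ∀ v : placesOf T, (LD v.1).HomC M (Additive ℚbˣ)) (v : Place) (m : M) :
    Additive ℚbˣ :=
  if h : v ∈ placesOf T then (φ ⟨v, h⟩).1 m else 0

theorem extHom_add (φ : ∀ v : placesOf T, (LD v.1).HomC M (Additive ℚbˣ)) (v : Place) (a b : M) :
    extHom φ v (a + b) = extHom φ v a + extHom φ v b := by
  unfold extHom
  split_ifs with h
  · exact map_add _ _ _
  · exact (add_zero 0).symm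

theorem extHom_mem (φ : ∀ v : placesOf T, (LD v.1).HomC M (Additive ℚbˣ)) (v : Place) :
    extHom φ v ∈ (LD v).equivariant M (Additive ℚbˣ) := fun d m => by
  unfold extHom
  split_ifs with h
  · exact (φ ⟨v, h⟩).2 d m
  · exact (smul_zero d).symm

theorem extHom_support (φ : ∀ v : placesOf T, (LD v.1).HomC M (Additive ℚbˣ)) (v : Place)
    (h : v ∉ placesOf T) : extHom φ v = 0 := funext fun _ => dif_neg h

/-- The class of a family of local homomorphisms. -/
def homToClass (hN : (LT T).IsLevel N) (hMN : ∀ s ∈ N, ∀ m : M, s • m = m) :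
    (∀ v : placesOf T, (LD v.1).HomC M (Additive ℚbˣ)) →+ (LT T).HomC M (ClassT T) :=
  AddMonoidHom.mk' (fun φ => ⟨AddMonoidHom.mk'
      (fun m => indClass (extHom φ) (extHom_mem φ) (extHom_support φ) hN hMN m) (fun a b => by
        unfold indClass
        rw [← map_add]
        refine congrArg (classHom T) (idele_ext fun v g => ?_)
        rw [map_add, LocFam.evalAt_ind, LocFam.evalAt_ind, LocFam.evalAt_ind, smul_add]
        exact extHom_add φ v _ _),
      fun g m => indClass_mem (extHom φ) (extHom_mem φ) (extHom_support φ) g m⟩)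
    fun φ φ' => Subtype.ext (AddMonoidHom.ext fun m => by
      show indClass _ _ _ hN hMN m = indClass _ _ _ hN hMN m + indClass _ _ _ hN hMN m
      unfold indClass
      rw [← map_add]
      refine congrArg (classHom T) (idele_ext fun v g => ?_)
      rw [map_add, LocFam.evalAt_ind, LocFam.evalAt_ind, LocFam.evalAt_ind]
      show extHom (φ + φ') v (g • m) = extHom φ v (g • m) + extHom φ' v (g • m)
      unfold extHom
      split_ifs with h
      · rfl
      · exact (add_zero 0).symm)

theorem homToClass_surjective (hT : (⟨p, Fact.out⟩ : Nat.Primes) ∈ T) [Finite M]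
    (hp : ∀ m : M, p • m = 0) (hN : (LT T).IsLevel N) (hbig : IsBig T N)
    (hMN : ∀ s ∈ N, ∀ m : M, s • m = m) (Q : Finset Nat.Primes) (hQT : Q ⊆ T)
    (hkill : ∀ y, IsDualCocycle T M y → (∀ q ∈ Q, IsLocTrivial M (some q) y) →
      IsDualCoboundary M y) :
    Function.Surjective (homToClass (M := M) hN hMN) := by
  intro c
  have hK : ∀ v, (fun _ : Place => (0 : M → M → Additive ℚbˣ)) v ∈
      (LD v).SymZ M (Additive ℚbˣ) := fun v => zero_mem _
  have h0 : ∀ a b, classHom T
      (indSym (fun _ => (0 : M → M → Additive ℚbˣ)) hK (fun _ _ => rfl) hN hMN a b) = 0 :=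
    fun a b => by
      rw [← map_zero (classHom T)]
      exact congrArg (classHom T) (idele_ext fun v g => (map_zero (evalAt v g)).symm)
  obtain ⟨h, hh, hh0, hhd, hhc⟩ := lift_split hT hp hN hbig hMN Q hQT hkill
    (fun _ => 0) hK (fun _ _ => rfl) (fun _ _ => rfl) (fun m => c.1 m) c.2 fun a b => by
      rw [h0, map_add, sub_self]
  refine ⟨fun v => ⟨AddMonoidHom.mk' (h v.1) fun a b => (sub_eq_zero.mp ?_).symm, hh v.1⟩, ?_⟩
  · exact hhd v.1 v.2 a b
  · refine Subtype.ext (AddMonoidHom.ext fun m => ?_)
    refine Eq.trans (congrArg (classHom T) (idele_ext fun v g => ?_)) (hhc m)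
    rw [LocFam.evalAt_ind, LocFam.evalAt_ind]
    simp only [LocFam.ofFun, extHom]
    split_ifs with hv
    · rfl
    · rw [hh0 v hv]; rfl

/-- The local homomorphisms with trivial class are the global ones. -/
def homKerEquiv (hp : ∀ m : M, p • m = 0)
    (hN : (LT T).IsLevel N) (hMN : ∀ s ∈ N, ∀ m : M, s • m = m) :
    (homToClass (M := M) hN hMN).ker ≃
      {φ : M →+ Additive ℚbˣ // ∀ (g : GQ) m, φ (g • m) = g • φ m} where
  toFun φ := ⟨(φ.1 ⟨none, mem_placesOf_none⟩).1, fun g m => by
    have hφ : ∀ m, classHom T ((LocFam.ofFun (extHom φ.1) (extHom_mem φ.1) (extHom_support φ.1)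
        hN hMN).ind m) = 0 := fun m =>
      congrArg (fun c : (LT T).HomC M (ClassT T) => c.1 m) (AddMonoidHom.mem_ker.mp φ.2)
    have h1 := (components_of_class_zero (hφ m)).1 none mem_placesOf_none g
    rw [LocFam.evalAt_ind, LocFam.evalAt_ind, one_smul] at h1
    simpa [extHom, LocFam.ofFun, mem_placesOf_none] using! h1⟩
  invFun φ := ⟨fun v => ⟨φ.1, fun d m => φ.2 _ m⟩, by
    refine AddMonoidHom.mem_ker.mpr (Subtype.ext (AddMonoidHom.ext fun m => ?_))
    show classHom T ((LocFam.ofFun _ (extHom_mem _) (extHom_support _) hN hMN).ind m) = 0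
    refine classHom_eq_zero_of (φ.1 m) hN
      (fun s hs => by rw [← φ.2, show s • m = m from hMN s hs m]) (fun v hv g => ?_)
      (LocFam.isUnitsOutside_ind _ m) (isTUnit_of_pow (p := p) ?_)
    · rw [LocFam.evalAt_ind]
      simp only [LocFam.ofFun, extHom, dif_pos hv]
      exact φ.2 g m
    · rw [← map_nsmul, hp, map_zero]
      intro q hq g
      rw [toMul_zero, smul_one]
      exact one_mem _⟩
  left_inv φ := by
    refine Subtype.ext (funext fun v => Subtype.ext (AddMonoidHom.ext fun m => ?_))
    have hφ : classHom T ((LocFam.ofFun (extHom φ.1) (extHom_mem φ.1) (extHom_support φ.1)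
        hN hMN).ind m) = 0 :=
      congrArg (fun c : (LT T).HomC M (ClassT T) => c.1 m) (AddMonoidHom.mem_ker.mp φ.2)
    have h1 := (components_of_class_zero hφ).1 v.1 v.2 1
    rw [LocFam.evalAt_ind, LocFam.evalAt_ind, one_smul, one_smul] at h1
    simp only [LocFam.ofFun, extHom, dif_pos v.2, dif_pos mem_placesOf_none] at h1
    exact h1.symm
  right_inv φ := rfl

end Fermat.Agent.GD
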