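import Fermat.Agent.GD.Bases.Defs

/-!
# Definitions for the Greenberg-Wiles formula
-/

set_option autoImplicit false

noncomputable section

namespace Fermat.Agent.GD

open Fermat.Agent.Galois (GQ)

local notation "ℚb" => AlgebraicClosure ℚ

variable {p : ℕ} [Fact p.Prime] (T : Finset Nat.Primes)
variable (M : Type) [AddCommGroup M] [DistribMulAction GQ M]

local instance : DistribMulAction (LT T).G M := inferInstanceAs (DistribMulAction GQ M)

local instance (v : Place) : DistribMulAction (LD v).G M :=
  inferInstanceAs (DistribMulAction (decomp v) M)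

/-- The twisted dual `Hom(M, ℚ̄ˣ)`. -/
def DualMod : Type := M →+ Additive ℚbˣ

instance : AddCommGroup (DualMod M) := inferInstanceAs (AddCommGroup (M →+ Additive ℚbˣ))

/-- Evaluation of an element of the dual. -/
def DualMod.app (φ : DualMod M) (m : M) : Additive ℚbˣ := (show M →+ Additive ℚbˣ from φ) m

/-- The action on the dual. -/
def dualSmul (g : GQ) (φ : DualMod M) : DualMod M :=
  ((DistribSMul.toAddMonoidHom (Additive ℚbˣ) g).comp (φ : M →+ Additive ℚbˣ)).comp
    (DistribSMul.toAddMonoidHom M g⁻¹)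

/-- A cocycle of the dual, unramified outside `T`. -/
def IsDualCocycle (y : GQ → DualMod M) : Prop :=
  (LT T).Const₁ y ∧ ∀ g h, y (g * h) = y g + dualSmul M g (y h)

/-- The cocycle is a coboundary on a decomposition group. -/
def IsLocTrivial (v : Place) (y : GQ → DualMod M) : Prop :=
  ∃ φ, ∀ g ∈ decomp v, y g = dualSmul M g φ - φ

/-- A cocycle is a global coboundary. -/
def IsDualCoboundary (y : GQ → DualMod M) : Prop := ∃ φ, ∀ g, y g = dualSmul M g φ - φ

/-- Restriction of a cocycle to a decomposition group. -/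
def resCocycle (v : Place) : (LT T).Z1 M →+ (LD v).Z1 M where
  toFun x := ⟨fun d => x.1 (d : decomp v).1, by
    obtain ⟨⟨N, ⟨F, hF, hN, hn⟩, hx⟩, hxc⟩ := x.2
    exact ⟨⟨_, ⟨N, ⟨F, hF.1, hN, hn⟩, rfl⟩, fun g s hs => hx _ _ hs⟩, fun g h => hxc _ _⟩⟩
  map_zero' := rfl
  map_add' _ _ := rfl

/-- The cardinality of the local cohomology classes in a subgroup of cocycles. -/
def cardClasses (v : Place) (L : AddSubgroup ((LD v).Z1 M)) : ℕ :=
  Nat.card (L ⧸ (((LD v).B1 M).addSubgroupOf ((LD v).Z1 M)).addSubgroupOf L)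

/-- The Selmer classes. -/
def selmerClasses (L : ∀ v, AddSubgroup ((LD v).Z1 M)) : AddSubgroup ((LT T).H1 M) :=
  (⨅ v ∈ placesOf T, (L v).comap (resCocycle T M v)).map
    (QuotientAddGroup.mk' (((LT T).B1 M).addSubgroupOf ((LT T).Z1 M)))

variable {T} {M}

/-- No dual class kills all local conditions: every dual cocycle orthogonal to them is locally
trivial at all places of `T`, and a locally trivial one is trivial. -/
structure NoDual (D : ClassData p) (T : Finset Nat.Primes)
    (L : ∀ v : Place, AddSubgroup ((LD v).Z1 M)) (Q : Finset Nat.Primes) : Prop where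
  subset : Q ⊆ T
  full : ∀ q ∈ Q, L (some q) = ⊤
  kill : ∀ y, IsDualCocycle T M y → (∀ q ∈ Q, IsLocTrivial M (some q) y) →
    IsDualCoboundary M y

end Fermat.Agent.GD
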