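import Fermat.Agent.GD.GW.Ad0
import Fermat.Agent.GD.GW.Mu

/-!
# The trace pairing identifies the dual of the adjoint module with its twist
-/

set_option autoImplicit false

noncomputable section

namespace Fermat.Agent.GD

open Fermat.Agent.Galois (GQ)
open Matrix

local notation "ℚb" => AlgebraicClosure ℚ

variable (p : ℕ) [Fact p.Prime]

theorem exists_cyclo_exponent (g : GQ) :
    ∃ n : ℕ, (∀ μ : ℚb, μ ^ p = 1 → g μ = μ ^ n) ∧ g • muUnit p = n • muUnit p := by
  haveI : NeZero p := ⟨(Fact.out : p.Prime).ne_zero⟩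
  obtain ⟨n, -, hn⟩ := (muGen_spec p).eq_pow_of_pow_eq_one
    (show g (muGen p) ^ p = 1 by rw [← map_pow, (muGen_spec p).pow_eq_one, map_one])
  refine ⟨n, fun μ hμ => ?_, ?_⟩
  · obtain ⟨i, -, rfl⟩ := (muGen_spec p).eq_pow_of_pow_eq_one hμ
    rw [map_pow, ← hn, ← pow_mul, ← pow_mul, mul_comm]
  · exact Additive.toMul.injective (Units.ext (by simpa [muUnit] using! hn.symm))

variable (k : Type) [Field k] [CharP k p]

theorem exists_functional : ∃ l : k →+ ZMod p, l 1 ≠ 0 := by
  letI : Algebra (ZMod p) k := ZMod.algebra k p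
  let b := Module.Free.chooseBasis (ZMod p) k
  obtain ⟨i, hi⟩ : ∃ i, b.coord i 1 ≠ 0 := by
    by_contra h
    simp only [not_exists, not_not] at h
    exact one_ne_zero (b.forall_coord_eq_zero_iff.mp h)
  exact ⟨(b.coord i).toAddMonoidHom, hi⟩

/-- A fixed nonzero functional. -/
def traceFun : k →+ ZMod p := (exists_functional p k).choose

theorem eq_zero_of_traceFun {c : k} (h : ∀ a, traceFun p k (a * c) = 0) : c = 0 := by
  by_contra hc
  exact (exists_functional p k).choose_spec (by simpa [hc, traceFun] using h c⁻¹)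

variable {p k} {R : GQ →* Matrix (Fin 2) (Fin 2) k}

/-- The trace pairing. -/
def adDual : Ad0Tw R →+ DualMod (Ad0 R) :=
  AddMonoidHom.mk' (fun x => AddMonoidHom.mk'
      (fun m => toMu p (traceFun p k (Ad0Tw.mat x * Ad0.mat m).trace)) fun m m' => by
        rw [map_add, mul_add, Matrix.trace_add, map_add, map_add])
    fun x y => AddMonoidHom.ext fun m => by
      show toMu p (traceFun p k (Ad0Tw.mat (x + y) * Ad0.mat m).trace) =
        toMu p (traceFun p k (Ad0Tw.mat x * Ad0.mat m).trace) +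
          toMu p (traceFun p k (Ad0Tw.mat y * Ad0.mat m).trace)
      rw [map_add, add_mul, Matrix.trace_add, map_add, map_add]

theorem adDual_app (x : Ad0Tw R) (m : Ad0 R) :
    (adDual (p := p) x).app (Ad0 R) m = toMu p (traceFun p k (Ad0Tw.mat x * Ad0.mat m).trace) :=
  rfl

theorem adDual_smul (h : TW.TWHyp p R) (g : GQ) (x : Ad0Tw R) :
    adDual (p := p) (g • x) = dualSmul (Ad0 R) g (adDual x) := by
  refine AddMonoidHom.ext fun m => ?_
  show toMu p (traceFun p k (Ad0Tw.mat (g • x) * Ad0.mat m).trace) =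
    g • toMu p (traceFun p k (Ad0Tw.mat x * Ad0.mat (g⁻¹ • m)).trace)
  obtain ⟨n, hn, hnmu⟩ := exists_cyclo_exponent p g
  have hmu : ∀ a : ZMod p, g • toMu p a = toMu p (n • a) := fun a => by
    haveI : NeZero p := ⟨(Fact.out : p.Prime).ne_zero⟩
    rw [← ZMod.natCast_zmod_val a, toMu_natCast, smul_comm g a.val, hnmu, map_nsmul, toMu_natCast,
      smul_comm]
  rw [hmu, ← map_nsmul, nsmul_eq_mul, ← h.det_cyclotomic g n hn, Ad0Tw.mat_smul, TW.adAct,
    Ad0.mat_smul, inv_inv]
  congr 2
  rw [Matrix.smul_mul, Matrix.trace_smul, smul_eq_mul]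
  congr 1
  rw [← mul_assoc (Ad0Tw.mat x), Matrix.trace_mul_comm (Ad0Tw.mat x * _) (R g)]
  simp only [mul_assoc]

theorem adDual_injective (h : TW.TWHyp p R) : Function.Injective (adDual (p := p) (R := R)) := by
  rw [injective_iff_map_eq_zero]
  intro x hx
  have h2 := TW.two_ne_zero_of_twHyp h
  have key : ∀ m : sl2 k, (Ad0Tw.mat x * m.1).trace = 0 := fun m => by
    refine eq_zero_of_traceFun p k fun a => toMu_injective p ?_
    rw [map_zero]
    let m' : Ad0 R := (⟨a • m.1, mem_sl2.mpr (by
      rw [Matrix.trace_smul, mem_sl2.mp m.2, smul_zero])⟩ : sl2 k)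
    have h1 : (adDual (p := p) x).app (Ad0 R) m' = 0 := by rw [hx]; rfl
    rw [adDual_app] at h1
    rw [← h1, show Ad0.mat m' = a • m.1 from rfl, Matrix.mul_smul, Matrix.trace_smul, smul_eq_mul]
  have ht := Ad0Tw.trace_mat x
  rw [Matrix.trace_fin_two] at ht
  have e1 := key ((sl2Equiv k).symm (1, 0, 0))
  have e2 := key ((sl2Equiv k).symm (0, 1, 0))
  have e3 := key ((sl2Equiv k).symm (0, 0, 1))
  simp [sl2Equiv, Matrix.trace_fin_two, Matrix.mul_apply, Fin.sum_univ_two] at e1 e2 e3
  refine Ad0Tw.mat_injective (Matrix.ext fun i j => ?_)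
  have h00 : Ad0Tw.mat x 0 0 = 0 := by
    refine (mul_eq_zero.mp (?_ : (2 : k) * Ad0Tw.mat x 0 0 = 0)).resolve_left h2
    linear_combination e1 + ht
  have h11 : Ad0Tw.mat x 1 1 = 0 := by linear_combination ht - h00
  rw [map_zero]
  fin_cases i <;> fin_cases j
  · exact h00
  · exact e3
  · exact e2
  · exact h11

theorem card_addMonoidHom_zmod {V : Type} [AddCommGroup V] [Finite V] (hV : ∀ v : V, p • v = 0) :
    Finite (V →+ ZMod p) ∧ Nat.card (V →+ ZMod p) ≤ Nat.card V := by
  letI := AddCommGroup.zmodModule (n := p) hV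
  haveI : NeZero p := ⟨(Fact.out : p.Prime).ne_zero⟩
  haveI : Module.Finite (ZMod p) V := Module.Finite.of_finite
  let b := Module.finBasis (ZMod p) V
  let f : (V →+ ZMod p) → (Fin (Module.finrank (ZMod p) V) → ZMod p) := fun φ i => φ (b i)
  have hf : Function.Injective f := fun φ ψ e => by
    refine AddMonoidHom.ext fun v => ?_
    rw [← b.sum_repr v, map_sum, map_sum]
    refine Finset.sum_congr rfl fun i _ => ?_
    rw [← ZMod.natCast_zmod_val (b.repr v i), Nat.cast_smul_eq_nsmul, map_nsmul, map_nsmul,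
      show φ (b i) = ψ (b i) from congrFun e i]
  exact ⟨Finite.of_injective f hf, (Nat.card_le_card_of_injective f hf).trans
    (Nat.card_congr b.equivFun.toEquiv).ge⟩

theorem adDual_surjective [Finite k] (h : TW.TWHyp p R) :
    Function.Surjective (adDual (p := p) (R := R)) := by
  let push : (Ad0 R →+ ZMod p) → DualMod (Ad0 R) := fun l => (toMu p).comp l
  have hpush : Function.Surjective push := fun φ => by
    have hv : ∀ m, ∃ a, toMu p a = φ.app (Ad0 R) m := fun m => exists_toMu p (by
      show p • (show Ad0 R →+ Additive ℚbˣ from φ) m = 0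
      rw [← map_nsmul, Ad0.nsmul_eq_zero, map_zero])
    choose l hl using hv
    refine ⟨AddMonoidHom.mk' l fun m m' => toMu_injective p ?_, AddMonoidHom.ext hl⟩
    rw [map_add, hl, hl, hl]
    exact map_add (show Ad0 R →+ Additive ℚbˣ from φ) m m'
  obtain ⟨hfin, hle⟩ := card_addMonoidHom_zmod (p := p) (V := Ad0 R) Ad0.nsmul_eq_zero
  haveI := Finite.of_surjective push hpush
  refine ((Nat.bijective_iff_injective_and_card _).mpr ⟨adDual_injective h, ?_⟩).2
  exact le_antisymm (Nat.card_le_card_of_injective _ (adDual_injective h))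
    (((Nat.card_le_card_of_surjective push hpush).trans hle).trans (card_ad0.trans card_sl2.symm).le)

/-- The equivariant identification. -/
def adDualEquiv [Finite k] (h : TW.TWHyp p R) : Ad0Tw R ≃+ DualMod (Ad0 R) :=
  AddEquiv.ofBijective adDual ⟨adDual_injective h, adDual_surjective h⟩

end Fermat.Agent.GD
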