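import Fermat.Agent.GD.GW.Defs
import Fermat.Agent.GD.GW.Root

/-!
# Ideles induced from local data at the places of `T`
-/

set_option autoImplicit false

noncomputable section

namespace Fermat.Agent.GD

open Fermat.Agent.Galois (GQ)

local notation "ℚb" => AlgebraicClosure ℚ

variable {T : Finset Nat.Primes}

/-- The projection to the classes, written additively. -/
def classHom (T : Finset Nat.Primes) : Additive (idele T) →+ ClassT T :=
  MonoidHom.toAdditive (mkClass T)

theorem classHom_apply (f : Additive (idele T)) : classHom T f = toClass T f.toMul := rfl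

theorem classHom_smul (g : (LT T).G) (f : Additive (idele T)) :
    classHom T (g • f) = g • classHom T f := rfl

/-- A component of an idele. -/
def evalAt (v : Place) (g : GQ) : Additive (idele T) →+ Additive ℚbˣ where
  toFun f := Additive.ofMul (f.toMul.1 v g)
  map_zero' := rfl
  map_add' _ _ := rfl

theorem evalAt_apply (v : Place) (g : GQ) (f : Additive (idele T)) :
    evalAt v g f = Additive.ofMul (f.toMul.1 v g) := rfl

theorem evalAt_smul (v : Place) (g σ : GQ) (f : Additive (idele T)) :
    evalAt v g ((show (LT T).G from σ) • f) = evalAt v (g * σ) f := rfl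

theorem evalAt_decomp (v : Place) {d : GQ} (hd : d ∈ decomp v) (g : GQ)
    (f : Additive (idele T)) : evalAt v (d * g) f = d • evalAt v g f :=
  congrArg Additive.ofMul (f.toMul.2.1 v d hd g)

theorem mem_placesOf_none : none ∈ placesOf T := Finset.none_mem_insertNone

theorem mem_placesOf_some {q : Nat.Primes} : some q ∈ placesOf T ↔ q ∈ T :=
  Finset.some_mem_insertNone

/-- Units outside `T`, for an element of the algebraic numbers. -/
def IsTUnit (T : Finset Nat.Primes) (x : Additive ℚbˣ) : Prop :=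
  ∀ q ∉ T, ∀ g : GQ, g • x.toMul ∈ (placeAt q).unitGroup

/-- Units outside `T`, for an idele. -/
def IsUnitsOutside (f : Additive (idele T)) : Prop :=
  ∀ q ∉ T, ∀ g : GQ, f.toMul.1 (some q) g ∈ (placeAt q).unitGroup

theorem classHom_eq_zero_iff {f : Additive (idele T)} :
    classHom T f = 0 ↔ f.toMul ∈ classKer T :=
  (QuotientGroup.eq_one_iff _)

/-- The shape of a trivial class. -/
theorem components_of_class_zero {f : Additive (idele T)} (hf : classHom T f = 0) :
    (∀ v ∈ placesOf T, ∀ g : GQ, evalAt v g f = g • evalAt none 1 f) ∧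
      (∃ N, (LT T).IsLevel N ∧ ∀ s : GQ, s ∈ N → s • evalAt none 1 f = evalAt none 1 f) ∧
      (IsUnitsOutside f → IsTUnit T (evalAt none 1 f)) := by
  rw [classHom_eq_zero_iff, classKer, Subgroup.mem_subgroupOf, Subgroup.mem_sup] at hf
  obtain ⟨_, ⟨x, ⟨N, hN, hx⟩, rfl⟩, u, hu, h⟩ := hf
  have e : ∀ v g, f.toMul.1 v g = g • x * u v g := fun v g => by
    rw [← h]; rfl
  have e0 : f.toMul.1 none 1 = x := by rw [e, hu.1, mul_one, one_smul]
  have e0' : evalAt none 1 f = Additive.ofMul x := congrArg Additive.ofMul e0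
  refine ⟨fun v hv g => ?_, ⟨N, hN, fun s hs => ?_⟩, fun hU q hq g => ?_⟩
  · rw [e0']
    refine congrArg Additive.ofMul ((e v g).trans ?_)
    rcases v with _ | q
    · rw [hu.1, mul_one]; rfl
    · rw [hu.2.1 q (mem_placesOf_some.mp hv), mul_one]; rfl
  · rw [e0']
    exact congrArg Additive.ofMul (hx s hs)
  · rw [e0']
    show g • x ∈ (placeAt q).unitGroup
    have h1 := hU q hq g
    rw [e] at h1
    simpa using! mul_mem h1 (inv_mem (hu.2.2 q g))

/-- An idele agreeing with a principal one on `T` and with units outside has trivial class. -/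
theorem classHom_eq_zero_of {f : Additive (idele T)} (x : Additive ℚbˣ) {N : Subgroup (LT T).G}
    (hN : (LT T).IsLevel N) (hx : ∀ s : GQ, s ∈ N → s • x = x)
    (hT : ∀ v ∈ placesOf T, ∀ g : GQ, evalAt v g f = g • x) (hU : IsUnitsOutside f)
    (hxU : IsTUnit T x) : classHom T f = 0 := by
  rw [classHom_eq_zero_iff, classKer, Subgroup.mem_subgroupOf, Subgroup.mem_sup]
  refine ⟨diag x.toMul, ⟨x.toMul, ⟨N, hN, fun s hs => congrArg Additive.toMul (hx s hs)⟩, rfl⟩,
    (diag x.toMul)⁻¹ * f.toMul.1, ⟨fun g => ?_, fun q hq g => ?_, fun q g => ?_⟩, ?_⟩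
  · show (g • x.toMul)⁻¹ * f.toMul.1 none g = 1
    rw [show f.toMul.1 none g = g • x.toMul from
      congrArg Additive.toMul (hT none mem_placesOf_none g), inv_mul_cancel]
  · show (g • x.toMul)⁻¹ * f.toMul.1 (some q) g = 1
    rw [show f.toMul.1 (some q) g = g • x.toMul from
      congrArg Additive.toMul (hT _ (mem_placesOf_some.mpr hq) g), inv_mul_cancel]
  · show (g • x.toMul)⁻¹ * f.toMul.1 (some q) g ∈ _
    by_cases hq : q ∈ T
    · rw [show f.toMul.1 (some q) g = g • x.toMul from
        congrArg Additive.toMul (hT _ (mem_placesOf_some.mpr hq) g), inv_mul_cancel]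
      exact one_mem _
    · exact mul_mem (inv_mem (hxU q hq g)) (hU q hq g)
  · rw [← mul_assoc, mul_inv_cancel, one_mul]

/-- Local data inducing ideles. -/
structure LocFam (T : Finset Nat.Primes) (X : Type) [MulAction GQ X] where
  f : Place → X → Additive ℚbˣ
  equivariant : ∀ v, ∀ d ∈ decomp v, ∀ x, f v (d • x) = d • f v x
  support : ∀ v, v ∉ placesOf T → ∀ x, f v x = 0
  fixed : ∃ N, (LT T).IsLevel N ∧ ∀ x : X, ∀ s : GQ, s ∈ N → s • x = x

variable {X : Type} [MulAction GQ X]

/-- The induced idele. -/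
def LocFam.ind (F : LocFam T X) (x : X) : Additive (idele T) :=
  Additive.ofMul ⟨fun v g => (F.f v (g • x)).toMul, fun v d hd g => by
      show (F.f v ((d * g) • x)).toMul = _
      rw [mul_smul, F.equivariant v d hd]; rfl, by
      obtain ⟨N, hN, hx⟩ := F.fixed
      exact ⟨N, hN, fun v g s hs => by
        show (F.f v ((g * s) • x)).toMul = _
        rw [mul_smul, hx x s hs]⟩,
      (T.finite_toSet).subset fun q ⟨g, hg⟩ => by
        by_contra hq
        change (F.f (some q) (g • x)).toMul ∉ _ at hg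
        rw [F.support _ (fun h => hq (mem_placesOf_some.mp h))] at hg
        exact hg (one_mem _)⟩

theorem LocFam.evalAt_ind (F : LocFam T X) (v : Place) (g : GQ) (x : X) :
    evalAt v g (F.ind x) = F.f v (g • x) := rfl

theorem idele_ext {f f' : Additive (idele T)} (h : ∀ v g, evalAt v g f = evalAt v g f') :
    f = f' := by
  apply Additive.toMul.injective
  apply Subtype.ext
  funext v g
  exact congrArg Additive.toMul (h v g)

theorem LocFam.ind_smul (F : LocFam T X) (σ : GQ) (x : X) :
    F.ind (σ • x) = (show (LT T).G from σ) • F.ind x := by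
  refine idele_ext fun v g => ?_
  rw [evalAt_smul, F.evalAt_ind, F.evalAt_ind, mul_smul]

theorem LocFam.isUnitsOutside_ind (F : LocFam T X) (x : X) : IsUnitsOutside (F.ind x) := by
  intro q hq g
  show (F.f (some q) (g • x)).toMul ∈ _
  rw [F.support _ (fun h => hq (mem_placesOf_some.mp h))]
  exact one_mem _

variable {M : Type} [AddCommGroup M] [DistribMulAction GQ M]

local instance : DistribMulAction (LT T).G M := inferInstanceAs (DistribMulAction GQ M)

local instance (v : Place) : DistribMulAction (LD v).G M :=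
  inferInstanceAs (DistribMulAction (decomp v) M)

theorem mem_equivariant_local {v : Place} {h : M → Additive ℚbˣ} :
    h ∈ (LD v).equivariant M (Additive ℚbˣ) ↔ ∀ d ∈ decomp v, ∀ m, h (d • m) = d • h m :=
  ⟨fun hh d hd m => hh ⟨d, hd⟩ m, fun hh d m => hh _ (d : decomp v).2 m⟩

/-- Local symmetric cocycles as data on pairs. -/
def LocFam.ofSym (K : Place → M → M → Additive ℚbˣ)
    (hK : ∀ v, K v ∈ (LD v).SymZ M (Additive ℚbˣ))
    (hs : ∀ v, v ∉ placesOf T → K v = 0) {N : Subgroup (LT T).G} (hN : (LT T).IsLevel N)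
    (hMN : ∀ s ∈ N, ∀ m : M, s • m = m) : LocFam T (M × M) where
  f v x := K v x.1 x.2
  equivariant v d hd x := (hK v).1 ⟨d, hd⟩ x.1 x.2
  support v hv x := by rw [hs v hv]; rfl
  fixed := ⟨N, hN, fun x s hs => Prod.ext (hMN s hs x.1) (hMN s hs x.2)⟩

/-- The induced symmetric cocycle of ideles. -/
def indSym (K : Place → M → M → Additive ℚbˣ) (hK : ∀ v, K v ∈ (LD v).SymZ M (Additive ℚbˣ))
    (hs : ∀ v, v ∉ placesOf T → K v = 0) {N : Subgroup (LT T).G} (hN : (LT T).IsLevel N)
    (hMN : ∀ s ∈ N, ∀ m : M, s • m = m) (a b : M) : Additive (idele T) :=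
  (LocFam.ofSym K hK hs hN hMN).ind (a, b)

variable {K : Place → M → M → Additive ℚbˣ} {hK : ∀ v, K v ∈ (LD v).SymZ M (Additive ℚbˣ)}
  {hs : ∀ v, v ∉ placesOf T → K v = 0} {N : Subgroup (LT T).G} {hN : (LT T).IsLevel N}
  {hMN : ∀ s ∈ N, ∀ m : M, s • m = m}

theorem evalAt_indSym (v : Place) (g : GQ) (a b : M) :
    evalAt v g (indSym K hK hs hN hMN a b) = K v (g • a) (g • b) := rfl

theorem indSym_mem : indSym K hK hs hN hMN ∈ (LT T).SymZ M (Additive (idele T)) := by
  refine ⟨fun σ a b => ?_, fun a b => ?_, fun a b c => ?_⟩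
  · exact (LocFam.ofSym K hK hs hN hMN).ind_smul σ (a, b)
  · refine idele_ext fun v g => ?_
    rw [evalAt_indSym, evalAt_indSym]
    exact (hK v).2.1 _ _
  · refine idele_ext fun v g => ?_
    rw [map_add, map_add, evalAt_indSym, evalAt_indSym, evalAt_indSym, evalAt_indSym, smul_add,
      smul_add]
    exact (hK v).2.2 _ _ _

theorem classHom_indSym_mem :
    (fun a b => classHom T (indSym K hK hs hN hMN a b)) ∈ (LT T).SymZ M (ClassT T) := by
  obtain ⟨h1, h2, h3⟩ := indSym_mem (K := K) (hK := hK) (hs := hs) (hN := hN) (hMN := hMN)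
  exact ⟨fun σ a b => by simp only [h1 σ a b]; exact classHom_smul _ _,
    fun a b => congrArg (classHom T) (h2 a b),
    fun a b c => by simp only [← map_add, h3 a b c]⟩

/-- Local homomorphisms or functions as data on points. -/
def LocFam.ofFun (h : Place → M → Additive ℚbˣ)
    (hh : ∀ v, h v ∈ (LD v).equivariant M (Additive ℚbˣ))
    (hs : ∀ v, v ∉ placesOf T → h v = 0) {N : Subgroup (LT T).G} (hN : (LT T).IsLevel N)
    (hMN : ∀ s ∈ N, ∀ m : M, s • m = m) : LocFam T M where
  f := h
  equivariant v d hd x := hh v ⟨d, hd⟩ x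
  support v hv x := by rw [hs v hv]; rfl
  fixed := ⟨N, hN, fun x s hs => hMN s hs x⟩

/-- The induced function with values in classes. -/
def indClass (h : Place → M → Additive ℚbˣ)
    (hh : ∀ v, h v ∈ (LD v).equivariant M (Additive ℚbˣ))
    (hs : ∀ v, v ∉ placesOf T → h v = 0) {N : Subgroup (LT T).G} (hN : (LT T).IsLevel N)
    (hMN : ∀ s ∈ N, ∀ m : M, s • m = m) (m : M) : ClassT T :=
  classHom T ((LocFam.ofFun h hh hs hN hMN).ind m)

theorem indClass_mem (h : Place → M → Additive ℚbˣ)
    (hh : ∀ v, h v ∈ (LD v).equivariant M (Additive ℚbˣ))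
    (hs : ∀ v, v ∉ placesOf T → h v = 0) :
    indClass h hh hs hN hMN ∈ (LT T).equivariant M (ClassT T) := fun σ m => by
  show classHom T _ = _
  exact (congrArg (classHom T) ((LocFam.ofFun h hh hs hN hMN).ind_smul σ m)).trans
    (classHom_smul _ _)

end Fermat.Agent.GD
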