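import Fermat.Agent.GD.Defs

/-!
# Symmetric cocycles with values in divisible groups split
-/

set_option autoImplicit false

noncomputable section

namespace Fermat.Agent.GD

universe u v

variable {M : Type u} [AddCommGroup M] {C : Type v} [AddCommGroup C]

/-- A normalised symmetric cocycle. -/
structure IsNormSym (x : M → M → C) : Prop where
  comm : ∀ a b, x a b = x b a
  cocycle : ∀ a b c, x a b + x (a + b) c = x b c + x a (b + c)
  zero_left : ∀ a, x 0 a = 0

/-- The abelian extension of a normalised symmetric cocycle. -/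
@[ext] structure SymExt (x : M → M → C) (hx : IsNormSym x) where
  c : C
  m : M

namespace SymExt

variable {x : M → M → C} {hx : IsNormSym x}

instance : Zero (SymExt x hx) := ⟨⟨0, 0⟩⟩
instance : Add (SymExt x hx) := ⟨fun a b => ⟨a.c + b.c + x a.m b.m, a.m + b.m⟩⟩
instance : Neg (SymExt x hx) := ⟨fun a => ⟨-a.c - x a.m (-a.m), -a.m⟩⟩

theorem add_def (a b : SymExt x hx) : a + b = ⟨a.c + b.c + x a.m b.m, a.m + b.m⟩ := rfl
theorem neg_def (a : SymExt x hx) : -a = ⟨-a.c - x a.m (-a.m), -a.m⟩ := rfl
theorem zero_def : (0 : SymExt x hx) = ⟨0, 0⟩ := rfl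

instance : AddCommGroup (SymExt x hx) where
  add_assoc a b d := by
    refine SymExt.ext ?_ (add_assoc _ _ _)
    simp only [add_def]
    have := hx.cocycle a.m b.m d.m
    calc a.c + b.c + x a.m b.m + d.c + x (a.m + b.m) d.m
        = a.c + b.c + d.c + (x a.m b.m + x (a.m + b.m) d.m) := by abel
      _ = a.c + (b.c + d.c + x b.m d.m) + x a.m (b.m + d.m) := by rw [this]; abel
  zero_add a := by ext <;> simp [add_def, zero_def, hx.zero_left]
  add_zero a := by ext <;> simp [add_def, zero_def, hx.comm a.m 0, hx.zero_left]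
  nsmul := nsmulRec
  zsmul := zsmulRec
  neg_add_cancel a := by
    ext <;> simp only [add_def, neg_def, zero_def]
    · rw [hx.comm (-a.m) a.m]; abel
    · exact neg_add_cancel _
  add_comm a b := by
    refine SymExt.ext ?_ (add_comm _ _)
    simp only [add_def]
    rw [hx.comm a.m b.m, add_comm a.c b.c]

/-- The inclusion of the kernel. -/
def incl : C →+ SymExt x hx where
  toFun c := ⟨c, 0⟩
  map_zero' := rfl
  map_add' a b := by ext <;> simp [add_def, hx.zero_left]

end SymExt

/-- A symmetric cocycle with values in a divisible group is a differential. -/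
theorem exists_split (hdiv : ∀ (n : ℕ), n ≠ 0 → ∀ c : C, ∃ d, n • d = c) (x : M → M → C)
    (hsym : ∀ a b, x a b = x b a)
    (hco : ∀ a b c, x a b + x (a + b) c = x b c + x a (b + c)) :
    ∃ h : M → C, ∀ a b, h a + h b - h (a + b) = x a b := by
  have h00 : ∀ a, x 0 a = x 0 0 := fun a => by
    have := hco 0 0 a
    rw [zero_add, zero_add, add_comm] at this
    exact (add_left_cancel this).symm
  let x' : M → M → C := fun a b => x a b - x 0 0
  have hx' : IsNormSym x' := by
    refine ⟨fun a b => ?_, fun a b c => ?_, fun a => ?_⟩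
    · simp only [x', hsym a b]
    · simp only [x']
      calc x a b - x 0 0 + (x (a + b) c - x 0 0) = x a b + x (a + b) c - (x 0 0 + x 0 0) := by abel
        _ = x b c - x 0 0 + (x a (b + c) - x 0 0) := by rw [hco]; abel
    · simp only [x', h00 a, sub_self]
  letI : DivisibleBy C ℤ :=
    letI : DivisibleBy C ℕ :=
      { div := fun c n => if h : n = 0 then 0 else (hdiv n h c).choose
        div_zero := fun c => dif_pos rfl
        div_cancel := fun {n} c h => by rw [dif_neg h]; exact (hdiv n h c).choose_spec }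
    AddGroup.divisibleByIntOfDivisibleByNat C
  have hinj : Function.Injective (SymExt.incl (x := x') (hx := hx')) := fun a b h =>
    congrArg SymExt.c h
  obtain ⟨r, hr⟩ := (Module.Baer.of_divisible C).extension_property_addMonoidHom
    (SymExt.incl (x := x') (hx := hx')) hinj (AddMonoidHom.id C)
  refine ⟨fun m => r ⟨0, m⟩ + x 0 0, fun a b => ?_⟩
  have he : (⟨0, a⟩ + ⟨0, b⟩ : SymExt x' hx') = SymExt.incl (x' a b) + ⟨0, a + b⟩ := by
    ext <;> simp [SymExt.add_def, SymExt.incl, hx'.zero_left]
  have h1 : r (SymExt.incl (x' a b)) = x' a b := DFunLike.congr_fun hr _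
  have h2 := congrArg r he
  rw [map_add, map_add, h1] at h2
  calc r ⟨0, a⟩ + x 0 0 + (r ⟨0, b⟩ + x 0 0) - (r ⟨0, a + b⟩ + x 0 0)
      = r ⟨0, a⟩ + r ⟨0, b⟩ - r ⟨0, a + b⟩ + x 0 0 := by abel
    _ = x a b := by rw [h2]; simp only [x']; abel

theorem nsmul_eq_sum_of_split {h : M → C} {x : M → M → C}
    (hd : ∀ a b, h a + h b - h (a + b) = x a b) {p : ℕ} {m : M} (hm : p • m = 0) :
    p • h m = ∑ i ∈ Finset.range p, x (i • m) m := by
  have key : ∀ n : ℕ, ∑ i ∈ Finset.range n, x (i • m) m = h 0 + n • h m - h (n • m) := by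
    intro n
    induction n with
    | zero => simp
    | succ n ih => rw [Finset.sum_range_succ, ih, ← hd, succ_nsmul, succ_nsmul]; abel
  rw [key, hm]
  abel

end Fermat.Agent.GD
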