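import Fermat.Agent.GD.GW.Induce
import Fermat.Agent.GD.GW.Split

/-!
# Lifting trivialisations of extensions to local ones
-/

set_option autoImplicit false

noncomputable section

namespace Fermat.Agent.GD

open Fermat.Agent.Galois (GQ)

local notation "ℚb" => AlgebraicClosure ℚ

variable {p : ℕ} [Fact p.Prime] {T : Finset Nat.Primes}
variable {M : Type} [AddCommGroup M] [DistribMulAction GQ M]

local instance : DistribMulAction (LT T).G M := inferInstanceAs (DistribMulAction GQ M)

local instance (v : Place) : DistribMulAction (LD v).G M :=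
  inferInstanceAs (DistribMulAction (decomp v) M)

theorem exists_finset_level {X : Type*} {P : Subgroup (LT T).G → X → Prop}
    (hmono : ∀ N N' x, N ≤ N' → P N' x → P N x) (S : Finset X)
    (h : ∀ x ∈ S, ∃ N, (LT T).IsLevel N ∧ P N x) :
    ∃ N, (LT T).IsLevel N ∧ ∀ x ∈ S, P N x := by
  classical
  induction S using Finset.induction with
  | empty => exact ⟨_, (LT T).exists_level.choose_spec, by simp⟩
  | insert x S _ ih =>
    obtain ⟨N, hN, hx⟩ := h x (Finset.mem_insert_self _ _)
    obtain ⟨N', hN', hx'⟩ := ih fun y hy => h y (Finset.mem_insert_of_mem hy)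
    refine ⟨N ⊓ N', (LT T).inf N N' hN hN', fun y hy => ?_⟩
    rcases Finset.mem_insert.mp hy with rfl | hy
    · exact hmono _ _ _ inf_le_left hx
    · exact hmono _ _ _ inf_le_right (hx' y hy)

theorem exists_level_forall {X : Type*} [Finite X] {P : Subgroup (LT T).G → X → Prop}
    (hmono : ∀ N N' x, N ≤ N' → P N' x → P N x)
    (h : ∀ x, ∃ N, (LT T).IsLevel N ∧ P N x) : ∃ N, (LT T).IsLevel N ∧ ∀ x, P N x := by
  have := Fintype.ofFinite X
  obtain ⟨N, hN, hx⟩ := exists_finset_level hmono Finset.univ fun x _ => h x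
  exact ⟨N, hN, fun x => hx x (Finset.mem_univ x)⟩

variable {N : Subgroup (LT T).G}

/-- A fixed class is the class of a fixed idele with units outside `T`. -/
theorem exists_unit_lift (hN : (LT T).IsLevel N) (hbig : IsBig T N) (H : Subgroup (LT T).G)
    (hle : N ≤ H) (c : ClassT T) (hc : ∀ h ∈ H, h • c = c) :
    ∃ f : Additive (idele T), (∀ h ∈ H, h • f = f) ∧ classHom T f = c ∧ IsUnitsOutside f := by
  obtain ⟨f, hf, hfc⟩ := exists_fixed_lift T H ⟨N, hN, hle⟩ c hc
  obtain ⟨x, hx, hxu⟩ := hbig H hle f fun h hh => congrArg Subtype.val (hf h hh)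
  have hxi : diag x ∈ idele T := by
    refine ⟨fun v d _ g => mul_smul d g x, ⟨N, hN, fun v g s hs => ?_⟩, ?_⟩
    · show (g * s) • x = g • x
      rw [mul_smul, hx s (hle hs)]
    · refine (f.2.2.2.union T.finite_toSet).subset fun q ⟨g, hg⟩ => ?_
      by_contra hc
      simp only [Set.mem_union, Finset.mem_coe, Set.mem_ofPred_eq, not_or, not_exists, not_not] at hc
      have h1 := hxu q hc.2 g
      refine hg ?_
      show g • x ∈ _
      have h2 := mul_mem (hc.1 g) (inv_mem h1)
      rwa [div_eq_mul_inv, mul_inv_rev, inv_inv, mul_comm (g • x), mul_inv_cancel_left] at h2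
  refine ⟨Additive.ofMul (f * (⟨diag x, hxi⟩ : idele T)⁻¹), fun h hh => ?_, ?_, fun q hq g => ?_⟩
  · refine idele_ext fun v g => ?_
    rw [evalAt_smul]
    refine congrArg Additive.ofMul ?_
    show f.1 v (g * (show GQ from h)) * ((g * (show GQ from h)) • x)⁻¹ = f.1 v g * (g • x)⁻¹
    rw [mul_smul, show (show GQ from h) • x = x from hx h hh]
    exact congrArg (· * _) (congrArg (fun F : idele T => F.1 v g) (hf h hh))
  · rw [ofMul_mul, map_add, ofMul_inv, map_neg]
    have h0 : classHom T (Additive.ofMul (⟨diag x, hxi⟩ : idele T)) = 0 := by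
      rw [classHom_eq_zero_iff, classKer, Subgroup.mem_subgroupOf]
      exact Subgroup.mem_sup_left ⟨x, ⟨N, hN, fun s hs => hx s (hle hs)⟩, rfl⟩
    rw [h0, neg_zero, add_zero]
    exact hfc
  · show f.1 (some q) g * (g • x)⁻¹ ∈ _
    rw [← div_eq_mul_inv]
    exact hxu q hq g

/-- An equivariant function into classes lifts to one into ideles with units outside `T`. -/
theorem exists_equivariant_lift (hN : (LT T).IsLevel N) (hbig : IsBig T N)
    (hMN : ∀ s ∈ N, ∀ m : M, s • m = m) (c : M → ClassT T)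
    (hc : c ∈ (LT T).equivariant M (ClassT T)) :
    ∃ F : M → Additive (idele T), F ∈ (LT T).equivariant M (Additive (idele T)) ∧
      (∀ m, classHom T (F m) = c m) ∧ ∀ m, IsUnitsOutside (F m) := by
  let rep : M → M := fun m => (Quotient.mk (MulAction.orbitRel (LT T).G M) m).out
  have hrep : ∀ m, ∃ σ : (LT T).G, σ • rep m = m := fun m => by
    have h : (MulAction.orbitRel (LT T).G M) (rep m) m :=
      Quotient.exact (Quotient.out_eq (Quotient.mk (MulAction.orbitRel (LT T).G M) m))
    obtain ⟨σ, hσ⟩ := MulAction.orbitRel_apply.mp h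
    exact ⟨σ⁻¹, by rw [← hσ, inv_smul_smul]⟩
  choose σ hσ using hrep
  choose f hf hfc hfu using fun m : M => exists_unit_lift hN hbig
    (MulAction.stabilizer (LT T).G (rep m)) (fun s hs => hMN s hs (rep m)) (c (rep m))
    (fun h hh => by rw [← hc, MulAction.mem_stabilizer_iff.mp hh])
  have hrep' : ∀ (g : (LT T).G) m, rep (g • m) = rep m := fun g m =>
    congrArg Quotient.out (Quotient.sound (MulAction.orbitRel_apply.mpr ⟨g, rfl⟩))
  refine ⟨fun m => σ m • f (rep m), fun g m => ?_, fun m => ?_, fun m q hq g => ?_⟩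
  · have h1 : rep (rep m) = rep m := by
      conv_lhs => rw [← hrep' (σ m) (rep m), hσ m]
    show σ (g • m) • f (rep (g • m)) = g • σ m • f (rep m)
    rw [hrep']
    have h2 : (σ m)⁻¹ * g⁻¹ * σ (g • m) ∈ MulAction.stabilizer (LT T).G (rep (rep m)) := by
      have h3 : σ (g • m) • rep m = g • m := by
        have := hσ (g • m)
        rwa [hrep'] at this
      rw [h1, MulAction.mem_stabilizer_iff, mul_smul, mul_smul, h3, inv_smul_smul,
        inv_smul_eq_iff, hσ m]
    have h4 := hf (rep m) _ h2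
    rw [mul_smul, mul_smul, inv_smul_eq_iff, inv_smul_eq_iff] at h4
    exact h4
  · have h1 : rep (rep m) = rep m := by
      conv_lhs => rw [← hrep' (σ m) (rep m), hσ m]
    rw [classHom_smul, hfc, ← hc, h1, hσ m]
  · exact hfu (rep m) q hq (g * (show GQ from σ m))

variable [Finite M]

omit [DistribMulAction GQ M] [Finite M] in
theorem dSym_evalAt (F : M → Additive (idele T)) (v : Place) (g : GQ) (a b : M) :
    evalAt v g (LevelGroup.dSym M _ F a b) = evalAt v g (F a) + evalAt v g (F b) -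
      evalAt v g (F (a + b)) := by
  show evalAt v g (F a + F b - F (a + b)) = _
  rw [map_sub, map_add]

omit [DistribMulAction GQ M] [Finite M] in
theorem isUnitsOutside_dSym {F : M → Additive (idele T)} (hF : ∀ m, IsUnitsOutside (F m))
    (a b : M) : IsUnitsOutside (LevelGroup.dSym M _ F a b) := fun q hq g =>
  mul_mem (mul_mem (hF a q hq g) (hF b q hq g)) (inv_mem (hF (a + b) q hq g)) |>
    fun h => by
      show (F a + F b - F (a + b)).toMul.1 (some q) g ∈ _
      rw [toMul_sub, toMul_add, div_eq_mul_inv]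
      exact h

theorem isTUnit_of_pow {x : Additive ℚbˣ} (hx : IsTUnit T (p • x)) : IsTUnit T x := by
  intro q hq g
  have h := hx q hq g
  rw [toMul_nsmul, smul_pow'] at h
  rw [ValuationSubring.mem_unitGroup_iff] at h ⊢
  rw [Units.val_pow_eq_pow_val, map_pow] at h
  exact (pow_eq_one_iff.mp h).resolve_right (Fact.out : p.Prime).ne_zero

/-- An equivariant trivialisation over classes of an induced extension comes from local
trivialisations, when the places of `Q` kill the dual classes. -/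
theorem lift_split (hT : (⟨p, Fact.out⟩ : Nat.Primes) ∈ T) (hp : ∀ m : M, p • m = 0)
    (hN : (LT T).IsLevel N) (hbig : IsBig T N)
    (hMN : ∀ s ∈ N, ∀ m : M, s • m = m) (Q : Finset Nat.Primes) (hQT : Q ⊆ T)
    (hkill : ∀ y, IsDualCocycle T M y → (∀ q ∈ Q, IsLocTrivial M (some q) y) →
      IsDualCoboundary M y)
    (K : Place → M → M → Additive ℚbˣ) (hK : ∀ v, K v ∈ (LD v).SymZ M (Additive ℚbˣ))
    (hs : ∀ v, v ∉ placesOf T → K v = 0) (hKQ : ∀ q ∈ Q, K (some q) = 0)
    (c : M → ClassT T) (hc : c ∈ (LT T).equivariant M (ClassT T))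
    (hd : ∀ a b, c a + c b - c (a + b) = classHom T (indSym K hK hs hN hMN a b)) :
    ∃ (h : Place → M → Additive ℚbˣ) (hh : ∀ v, h v ∈ (LD v).equivariant M (Additive ℚbˣ))
      (hh0 : ∀ v, v ∉ placesOf T → h v = 0),
      (∀ v ∈ placesOf T, ∀ a b, h v a + h v b - h v (a + b) = K v a b) ∧
      ∀ m, indClass h hh hh0 hN hMN m = c m := by
  classical
  obtain ⟨F, hF, hFc, hFu⟩ := exists_equivariant_lift hN hbig hMN c hc
  obtain ⟨hIeq, hIcomm, hIco⟩ := indSym_mem (K := K) (hK := hK) (hs := hs) (hN := hN) (hMN := hMN)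
  let e : M → M → Additive (idele T) :=
    fun a b => indSym K hK hs hN hMN a b - LevelGroup.dSym M _ F a b
  have he0 : ∀ a b, classHom T (e a b) = 0 := fun a b => by
    show classHom T (_ - (F a + F b - F (a + b))) = 0
    rw [map_sub, map_sub, map_add, hFc, hFc, hFc, hd, sub_self]
  let x : M → M → Additive ℚbˣ := fun a b => evalAt none 1 (e a b)
  have hcomp : ∀ v ∈ placesOf T, ∀ (g : GQ) a b, evalAt v g (e a b) = g • x a b :=
    fun v hv g a b => (components_of_class_zero (he0 a b)).1 v hv g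
  have heq : ∀ (g : GQ) a b, e (g • a) (g • b) = (show (LT T).G from g) • e a b := fun g a b => by
    show _ - (F _ + F _ - F (g • a + g • b)) = _ • (_ - (F a + F b - F (a + b)))
    rw [← smul_add, smul_sub, smul_sub, smul_add (show (LT T).G from g) (F a) (F b)]
    exact congrArg₂ (· - ·) (hIeq g a b)
      (congrArg₂ (· - ·) (congrArg₂ (· + ·) (hF g a) (hF g b)) (hF g (a + b)))
  have hxeq : ∀ (g : GQ) a b, x (g • a) (g • b) = g • x a b := fun g a b => by
    show evalAt none 1 (e (g • a) (g • b)) = _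
    rw [heq, evalAt_smul, one_mul, hcomp none mem_placesOf_none]
  have hxU : ∀ a b, IsTUnit T (x a b) := fun a b =>
    (components_of_class_zero (he0 a b)).2.2 fun q hq g => by
      show (indSym K hK hs hN hMN a b - _).toMul.1 (some q) g ∈ _
      rw [toMul_sub, div_eq_mul_inv]
      exact mul_mem ((LocFam.ofSym K hK hs hN hMN).isUnitsOutside_ind (a, b) q hq g)
        (inv_mem (isUnitsOutside_dSym hFu a b q hq g))
  have hxN : ∀ a b, ∀ s : GQ, s ∈ N → s • x a b = x a b := fun a b s hs => by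
    rw [← hxeq, show s • a = a from hMN s hs a, show s • b = b from hMN s hs b]
  -- split over the algebraic numbers
  have hdiv : ∀ (n : ℕ), n ≠ 0 → ∀ u : Additive ℚbˣ, ∃ d, n • d = u := by
    intro n hn u
    obtain ⟨z, hz⟩ := IsAlgClosed.exists_pow_nat_eq (u.toMul : ℚb) (Nat.pos_of_ne_zero hn)
    have hz0 : z ≠ 0 := fun h => u.toMul.ne_zero (by rw [← hz, h, zero_pow hn])
    exact ⟨Additive.ofMul (Units.mk0 z hz0), congrArg Additive.ofMul (Units.ext (by simpa using! hz))⟩
  have he_co : ∀ a b d, e a b + e (a + b) d = e b d + e a (b + d) := fun a b d => by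
    show indSym K hK hs hN hMN a b - (F a + F b - F (a + b)) +
        (indSym K hK hs hN hMN (a + b) d - (F (a + b) + F d - F (a + b + d))) = _
    calc _ = indSym K hK hs hN hMN a b + indSym K hK hs hN hMN (a + b) d
          - (F a + F b + F d - F (a + b + d)) := by abel
      _ = indSym K hK hs hN hMN b d + indSym K hK hs hN hMN a (b + d)
          - (F a + F b + F d - F (a + b + d)) := by rw [hIco]
      _ = indSym K hK hs hN hMN b d - (F b + F d - F (b + d)) +
          (indSym K hK hs hN hMN a (b + d) - (F a + F (b + d) - F (a + (b + d)))) := by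
        rw [add_assoc a b d]; abel
  have he_comm : ∀ a b, e a b = e b a := fun a b => by
    show _ - (F a + F b - F (a + b)) = _ - (F b + F a - F (b + a))
    rw [hIcomm, add_comm (F a), add_comm a b]
  obtain ⟨h₀, hh₀⟩ := exists_split hdiv x (fun a b => congrArg (evalAt none 1) (he_comm a b))
    (fun a b d => by simp only [x, ← map_add, he_co])
  have hsumU : ∀ m, IsTUnit T (p • h₀ m) ∧ ∀ s : GQ, s ∈ N → s • (p • h₀ m) = p • h₀ m := by
    intro m
    rw [nsmul_eq_sum_of_split hh₀ (hp m)]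
    refine ⟨?_, fun s hs => ?_⟩
    · refine Finset.sum_induction _ (IsTUnit T) (fun a b ha hb q hq g => ?_) ?_ fun i _ => hxU _ _
      · rw [toMul_add, smul_mul']; exact mul_mem (ha q hq g) (hb q hq g)
      · intro q hq g; rw [toMul_zero, smul_one]; exact one_mem _
    · rw [Finset.smul_sum]; exact Finset.sum_congr rfl fun i _ => hxN _ _ s hs
  obtain ⟨N₁, hN₁, hN₁fix⟩ : ∃ N₁, (LT T).IsLevel N₁ ∧ ∀ m, ∀ s : GQ, s ∈ N₁ →
      s • h₀ m = h₀ m := by
    refine exists_level_forall (P := fun N₁ m => ∀ s : GQ, s ∈ N₁ → s • h₀ m = h₀ m)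
      (fun _ _ _ hle h s hs => h s (hle hs)) fun m => ?_
    obtain ⟨N', hN', h'⟩ := exists_level_root hT hN
      (x := (p • h₀ m).toMul) (y := (h₀ m).toMul)
      (fun s hs => congrArg Additive.toMul ((hsumU m).2 s hs)) (hsumU m).1 (by rw [toMul_nsmul])
    exact ⟨N', hN', fun s hs => congrArg Additive.ofMul (h' s hs)⟩
  let y : GQ → DualMod M := fun g => AddMonoidHom.mk' (fun m => g • h₀ (g⁻¹ • m) - h₀ m) (by
    intro a b
    have h1 := congrArg (fun u => g • u) (hh₀ (g⁻¹ • a) (g⁻¹ • b))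
    simp only [smul_sub, smul_add] at h1
    rw [← hxeq, smul_inv_smul, smul_inv_smul, ← hh₀ a b, ← smul_add g⁻¹ a b] at h1
    rw [← sub_eq_zero]
    rw [← sub_eq_zero] at h1
    rw [← neg_eq_zero, ← h1]
    abel)
  have hyapp : ∀ g m, (y g).app M m = g • h₀ (g⁻¹ • m) - h₀ m := fun g m => rfl
  have hy : IsDualCocycle T M y := by
    refine ⟨⟨N ⊓ N₁, (LT T).inf N N₁ hN hN₁, fun g s hs => ?_⟩, fun g h => ?_⟩
    · refine AddMonoidHom.ext fun m => ?_
      show (g * s : GQ) • h₀ ((g * s : GQ)⁻¹ • m) - h₀ m = (g : GQ) • h₀ ((g : GQ)⁻¹ • m) - h₀ m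
      rw [mul_smul, mul_inv_rev, mul_smul,
        show (s : GQ)⁻¹ • ((g : GQ)⁻¹ • m) = (g : GQ)⁻¹ • m from hMN _ (inv_mem hs.1) _,
        show (s : GQ) • h₀ ((g : GQ)⁻¹ • m) = h₀ ((g : GQ)⁻¹ • m) from hN₁fix _ s hs.2]
    · refine AddMonoidHom.ext fun m => ?_
      show (g * h) • h₀ ((g * h)⁻¹ • m) - h₀ m = g • h₀ (g⁻¹ • m) - h₀ m +
        g • (h • h₀ (h⁻¹ • g⁻¹ • m) - h₀ (g⁻¹ • m))
      rw [mul_inv_rev, mul_smul, mul_smul, smul_sub]
      abel
  have hloc : ∀ q ∈ Q, IsLocTrivial M (some q) y := by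
    intro q hq
    have hv : some q ∈ placesOf T := mem_placesOf_some.mpr (hQT hq)
    have hxq : ∀ a b, x a b = - (evalAt (some q) 1 (F a) + evalAt (some q) 1 (F b) -
        evalAt (some q) 1 (F (a + b))) := fun a b => by
      have h1 := hcomp _ hv 1 a b
      rw [one_smul] at h1
      rw [← h1]
      show evalAt (some q) 1 (indSym K hK hs hN hMN a b - LevelGroup.dSym M _ F a b) = _
      rw [map_sub, evalAt_indSym, hKQ q hq, dSym_evalAt]
      exact zero_sub _
    refine ⟨AddMonoidHom.mk' (fun m => h₀ m + evalAt (some q) 1 (F m)) (fun a b => ?_),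
      fun d hd => AddMonoidHom.ext fun m => ?_⟩
    · have h1 := (hh₀ a b).trans (hxq a b)
      rw [← sub_eq_zero] at h1
      rw [← sub_eq_zero, ← neg_eq_zero, ← h1]
      abel
    · show d • h₀ (d⁻¹ • m) - h₀ m = d • (h₀ (d⁻¹ • m) + evalAt (some q) 1 (F (d⁻¹ • m))) -
        (h₀ m + evalAt (some q) 1 (F m))
      have h2 : d • evalAt (some q) 1 (F (d⁻¹ • m)) = evalAt (some q) 1 (F m) := by
        rw [show F (d⁻¹ • m) = (show (LT T).G from d⁻¹) • F m from hF d⁻¹ m, evalAt_smul, one_mul,
          ← evalAt_decomp _ hd]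
        exact congrArg (fun z => evalAt (some q) z (F m)) (mul_inv_cancel d)
      rw [smul_add, h2]
      abel
  obtain ⟨ψ, hψ⟩ := hkill y hy hloc
  let h₁ : M → Additive ℚbˣ := fun m => h₀ m - ψ.app M m
  have hψadd : ∀ a b, ψ.app M (a + b) = ψ.app M a + ψ.app M b := fun a b =>
    map_add (show M →+ Additive ℚbˣ from ψ) a b
  have hd₁ : ∀ a b, h₁ a + h₁ b - h₁ (a + b) = x a b := fun a b => by
    rw [← hh₀ a b]; simp only [h₁, hψadd]; abel
  have hh₁ : ∀ (g : GQ) m, h₁ (g • m) = g • h₁ m := fun g m => by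
    have h1 : g • h₀ (g⁻¹ • (g • m)) - h₀ (g • m) = g • ψ.app M (g⁻¹ • (g • m)) - ψ.app M (g • m) :=
      congrArg (fun φ : DualMod M => φ.app M (g • m)) (hψ g)
    rw [inv_smul_smul, ← sub_eq_zero] at h1
    show h₀ (g • m) - ψ.app M (g • m) = g • (h₀ m - ψ.app M m)
    rw [smul_sub, ← sub_eq_zero, ← neg_eq_zero, ← h1]
    abel
  have hh₁U : ∀ m, IsTUnit T (h₁ m) := fun m => by
    refine isTUnit_of_pow (p := p) ?_
    have : p • ψ.app M m = 0 := by
      show p • (show M →+ Additive ℚbˣ from ψ) m = 0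
      rw [← map_nsmul, hp, map_zero]
    rw [show p • h₁ m = p • h₀ m from by rw [nsmul_sub, this, sub_zero]]
    exact (hsumU m).1
  let h : Place → M → Additive ℚbˣ :=
    fun v m => if v ∈ placesOf T then evalAt v 1 (F m) + h₁ m else 0
  have hh : ∀ v, h v ∈ (LD v).equivariant M (Additive ℚbˣ) := fun v =>
    mem_equivariant_local.mpr fun d hd m => by
      show (if v ∈ placesOf T then _ else _) = d • (if v ∈ placesOf T then _ else _)
      split_ifs with hv
      · rw [smul_add, hh₁, show F (d • m) = (show (LT T).G from d) • F m from hF d m, evalAt_smul,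
          one_mul, ← evalAt_decomp _ hd, mul_one]
      · exact (smul_zero d).symm
  have hh0 : ∀ v, v ∉ placesOf T → h v = 0 := fun v hv => funext fun m => if_neg hv
  refine ⟨h, hh, hh0, fun v hv a b => ?_, fun m => ?_⟩
  · have h1 := hcomp v hv 1 a b
    rw [one_smul] at h1
    change evalAt v 1 (indSym K hK hs hN hMN a b - LevelGroup.dSym M _ F a b) = x a b at h1
    rw [map_sub, evalAt_indSym, dSym_evalAt, one_smul, one_smul, ← hd₁ a b, ← sub_eq_zero] at h1
    simp only [h, if_pos hv]
    rw [← sub_eq_zero, ← neg_eq_zero, ← h1]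
    abel
  · show classHom T ((LocFam.ofFun h hh hh0 hN hMN).ind m) = c m
    rw [← hFc m, ← sub_eq_zero, ← map_sub]
    refine classHom_eq_zero_of (h₁ m) hN
      (fun s hs => by rw [← hh₁, show s • m = m from hMN s hs m]) (fun v hv g => ?_)
      (fun q hq g => ?_) (hh₁U m)
    · rw [map_sub, LocFam.evalAt_ind]
      show h v (g • m) - evalAt v g (F m) = g • h₁ m
      simp only [h, if_pos hv]
      rw [show F (g • m) = (show (LT T).G from g) • F m from hF g m, evalAt_smul, one_mul, hh₁]
      abel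
    · rw [toMul_sub, div_eq_mul_inv]
      exact mul_mem ((LocFam.ofFun h hh hh0 hN hMN).isUnitsOutside_ind m q hq g)
        (inv_mem (hFu m q hq g))

end Fermat.Agent.GD
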