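import Fermat.Agent.GD.GW.Defs

/-!
# Functionals on classes are given by extensions
-/

set_option autoImplicit false

noncomputable section

namespace Fermat.Agent.GD

universe u v w

variable {L : LevelGroup.{u}} {C : Type w} [AddCommGroup C] [DistribMulAction L.G C] {p : ℕ}
  [Fact p.Prime] {M : Type v} [AddCommGroup M] [DistribMulAction L.G M] [Finite M]

/-- A functional on cocycles killing coboundaries is the pairing with an extension. -/
theorem PreClassModule.Duality.exists_pair {D : PreClassModule L C p} {hM : L.Smooth M}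
    (d : D.Duality L M hM) (hp : ∀ m : M, p • m = 0) [Finite (L.H1 M)]
    (χ : L.Z1 M →+ AddCircle (1 : ℚ)) (hχ : ∀ x : L.Z1 M, (x : L.G → M) ∈ L.B1 M → χ x = 0) :
    ∃ κ : L.SymZ M C, ∀ x, χ x = D.pairHom hM x κ := by
  have hu : ∀ x, clsH1 L M x = 0 ↔ ∀ κ, D.pairHom hM x κ = 0 :=
    fun x => clsH1_eq_zero.trans (d.left_iff D x)
  have hv : ∀ κ, clsExt L M C κ = 0 ↔ ∀ x, D.pairHom hM x κ = 0 :=
    fun κ => clsExt_eq_zero.trans (d.right_iff D κ)
  obtain ⟨hfin, -⟩ := card_range_eq (p := p) (D.pairHom hM) (clsH1 L M) (clsExt L M C) hu hv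
    (L.nsmul_h1 hp) (L.nsmul_ext1 hp)
  have : Finite (L.Ext1 M C) := Finite.of_surjective (Subtype.val : (clsExt L M C).range → _)
    fun z => ⟨⟨z, QuotientAddGroup.mk'_surjective _ z⟩, rfl⟩
  let β : L.Z1 M →+ L.Ext1 M C →+ AddCircle (1 : ℚ) := AddMonoidHom.mk'
    (fun x => QuotientAddGroup.lift _ (D.pairHom hM x)
      fun κ hκ => D.pairHom_symB hM x κ hκ)
    fun x x' => AddMonoidHom.ext fun z => by
      obtain ⟨κ, rfl⟩ := QuotientAddGroup.mk'_surjective _ z
      show D.pairHom hM (x + x') κ = D.pairHom hM x κ + D.pairHom hM x' κ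
      rw [map_add, AddMonoidHom.add_apply]
  obtain ⟨z, hz⟩ := exists_eq_pairing (p := p) (L.nsmul_ext1 hp) β χ fun x hx => by
    refine hχ x ((d.left_iff D x).mpr fun κ => ?_)
    exact DFunLike.congr_fun hx (clsExt L M C κ)
  obtain ⟨κ, rfl⟩ := QuotientAddGroup.mk'_surjective _ z
  exact ⟨κ, fun x => hz x⟩

end Fermat.Agent.GD
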