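import Fermat.Agent.GD.Bases
import Fermat.Agent.GD.GW.Lift
import Fermat.Agent.GD.GW.Perfect

/-!
# Global cocycles surject onto the local conditions
-/

set_option autoImplicit false

noncomputable section

namespace Fermat.Agent.GD

open Fermat.Agent.Galois (GQ)

local notation "ℚb" => AlgebraicClosure ℚ

variable {p : ℕ} [Fact p.Prime] {T : Finset Nat.Primes}
variable {M : Type} [AddCommGroup M] [DistribMulAction GQ M]

local instance : DistribMulAction (LT T).G M := inferInstanceAs (DistribMulAction GQ M)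

local instance (v : Place) : DistribMulAction (LD v).G M :=
  inferInstanceAs (DistribMulAction (decomp v) M)

variable {N : Subgroup (LT T).G}

theorem smooth_global (hN : (LT T).IsLevel N) (hMN : ∀ s ∈ N, ∀ m : M, s • m = m) :
    (LT T).Smooth M := fun m => ⟨N, hN, fun s hs => hMN s hs m⟩

theorem smooth_local (hN : (LT T).IsLevel N) (hMN : ∀ s ∈ N, ∀ m : M, s • m = m) (v : Place) :
    (LD v).Smooth M := fun m => by
  obtain ⟨F, hF, hFN, hn⟩ := hN
  exact ⟨_, ⟨N, ⟨F, hF.1, hFN, hn⟩, rfl⟩, fun s hs => hMN _ hs m⟩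

theorem finite_h1_local (hp2 : p ≠ 2) [Finite M] (hp : ∀ m : M, p • m = 0) {v : Place}
    (hM : (LD v).Smooth M) : Finite ((LD v).H1 M) := by
  rcases v with _ | q
  · have : Subsingleton ((LD none).H1 M) := ⟨fun a b => by
      obtain ⟨a, rfl⟩ := QuotientAddGroup.mk'_surjective _ a
      obtain ⟨b, rfl⟩ := QuotientAddGroup.mk'_surjective _ b
      exact (QuotientAddGroup.eq (s := ((LD none).B1 M).addSubgroupOf ((LD none).Z1 M))).mpr
        (h1_archimedean hp2 M hp hM _ (-a + b).2)⟩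
    exact inferInstance
  · exact (euler_local hp2 q M hp hM).1

/-- The map to the local conditions. -/
def toLocal (L : ∀ v : Place, AddSubgroup ((LD v).Z1 M)) :
    (LT T).Z1 M →+ ∀ v : placesOf T, (LD v.1).Z1 M ⧸ L v.1 :=
  AddMonoidHom.pi fun v => (QuotientAddGroup.mk' (L v.1)).comp (resCocycle T M v.1)

theorem toLocal_surjective (hp2 : p ≠ 2) (D : ClassData p)
    (hT : (⟨p, Fact.out⟩ : Nat.Primes) ∈ T) [Finite M] (hp : ∀ m : M, p • m = 0)
    (hN : (LT T).IsLevel N) (hμ : FixesMu p N) (hbig : IsBig T N)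
    (hMN : ∀ s ∈ N, ∀ m : M, s • m = m) (L : ∀ v : Place, AddSubgroup ((LD v).Z1 M))
    (hL : ∀ v, ((LD v).B1 M).addSubgroupOf ((LD v).Z1 M) ≤ L v)
    (Q : Finset Nat.Primes) (hQ : NoDual D T L Q) :
    Function.Surjective (toLocal (T := T) L) := by
  classical
  intro z
  by_contra hz
  have hz' : QuotientAddGroup.mk' (toLocal L).range z ≠ 0 := fun h =>
    hz ((QuotientAddGroup.eq_zero_iff z).mp h)
  obtain ⟨ch, hch⟩ := CharacterModule.exists_character_apply_ne_zero_of_ne_zero hz'
  let χ : (∀ v : placesOf T, (LD v.1).Z1 M ⧸ L v.1) →+ AddCircle (1 : ℚ) :=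
    (ch : _ →+ AddCircle (1 : ℚ)).comp (QuotientAddGroup.mk' _)
  have hχ : ∀ x, χ (toLocal L x) = 0 := fun x => by
    have h : QuotientAddGroup.mk' (toLocal L).range (toLocal L x) = 0 :=
      (QuotientAddGroup.eq_zero_iff _).mpr ⟨x, rfl⟩
    show ch (QuotientAddGroup.mk' (toLocal L).range (toLocal L x)) = 0
    rw [h]
    exact map_zero (ch : _ →+ AddCircle (1 : ℚ))
  let χv : ∀ v : placesOf T, (LD v.1).Z1 M →+ AddCircle (1 : ℚ) := fun v =>
    (χ.comp (AddMonoidHom.single (fun v : placesOf T => (LD v.1).Z1 M ⧸ L v.1) v)).comp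
      (QuotientAddGroup.mk' (L v.1))
  have hex : ∀ v : placesOf T, ∃ κ : (LD v.1).SymZ M (Additive ℚbˣ),
      (∀ x, χv v x = (D.loc v.1).pairHom (smooth_local hN hMN v.1) x κ) ∧
        ((∀ x, χv v x = 0) → κ = 0) := fun v => by
    by_cases h0 : ∀ x, χv v x = 0
    · exact ⟨0, fun x => (h0 x).trans (map_zero _).symm, fun _ => rfl⟩
    · have := finite_h1_local hp2 hp (smooth_local hN hMN v.1)
      obtain ⟨κ, hκ⟩ := (duality_local hp2 D v.1 M hp (smooth_local hN hMN v.1)).exists_pair hp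
        (χv v) fun x hx => by
          show χ (Pi.single v (QuotientAddGroup.mk' (L v.1) x)) = 0
          rw [show QuotientAddGroup.mk' (L v.1) x = 0 from
            (QuotientAddGroup.eq_zero_iff x).mpr (hL v.1 hx), Pi.single_zero, map_zero]
      exact ⟨κ, hκ, fun h => absurd h h0⟩
  choose κ hκ hκ0 using hex
  let K : Place → M → M → Additive ℚbˣ :=
    fun v => if h : v ∈ placesOf T then (κ ⟨v, h⟩).1 else 0
  have hK : ∀ v, K v ∈ (LD v).SymZ M (Additive ℚbˣ) := fun v => by
    by_cases h : v ∈ placesOf T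
    · simp only [K, dif_pos h]; exact (κ ⟨v, h⟩).2
    · simp only [K, dif_neg h]; exact zero_mem _
  have hs : ∀ v, v ∉ placesOf T → K v = 0 := fun v h => dif_neg h
  have hKQ : ∀ q ∈ Q, K (some q) = 0 := fun q hq => by
    have h : some q ∈ placesOf T := mem_placesOf_some.mpr (hQ.subset hq)
    simp only [K, dif_pos h]
    rw [hκ0 ⟨_, h⟩ fun x => ?_]
    · rfl
    · show χ (Pi.single (⟨some q, h⟩ : placesOf T) (QuotientAddGroup.mk' (L (some q)) x)) = 0
      rw [show QuotientAddGroup.mk' (L (some q)) x = 0 from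
        (QuotientAddGroup.eq_zero_iff x).mpr (by rw [hQ.full q hq]; exact AddSubgroup.mem_top x),
        Pi.single_zero, map_zero]
  let κI : (LT T).SymZ M (Additive (idele T)) := ⟨indSym K hK hs hN hMN, indSym_mem⟩
  let κJ : (LT T).SymZ M (ClassT T) :=
    ⟨fun a b => classHom T (indSym K hK hs hN hMN a b), classHom_indSym_mem⟩
  have hG := smooth_global hN hMN
  have hzero : ∀ x, (D.glob T hT).pair (LT T) M hG x κJ = 0 := fun x => by
    let w : GQ × GQ → idele T := fun y => ((LT T).cup M (Additive (idele T)) x.1 κI.1 y).toMul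
    have hl : ∀ (v : Place), locCochain v w =
        (LD v).cup M (Additive ℚbˣ) (resCocycle T M v x).1 (K v) := fun v => funext fun y => by
      show evalAt v 1 (indSym K hK hs hN hMN _ _) = _
      rw [evalAt_indSym, one_smul, one_smul]
      rfl
    have hzl : ∀ v, locCochain v w ∈ (LD v).Z2 (Additive ℚbˣ) := fun v => by
      rw [hl]
      exact (LD v).cup_mem_Z2 M (smooth_local hN hMN v) (resCocycle T M v x).2 (hK v)
    have h1 := D.decomposition T hT w ((LT T).cup_mem_Z2 M hG x.2 κJ.2) hzl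
      ((LT T).cup_mem_Z2 M hG x.2 κI.2)
      (fun y q hq g => (LocFam.ofSym K hK hs hN hMN).isUnitsOutside_ind _ q hq g)
    refine h1.trans ?_
    rw [← Finset.sum_coe_sort]
    rw [← hχ x, ← Finset.univ_sum_single (toLocal (T := T) L x), map_sum]
    refine Finset.sum_congr rfl fun v _ => ?_
    show _ = χv v (resCocycle T M v.1 x)
    rw [hκ v]
    refine congrArg (D.loc v.1).inv (Subtype.ext ?_)
    show locCochain v.1 w = (LD v.1).cup M (Additive ℚbˣ) (resCocycle T M v.1 x).1 (κ v).1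
    rw [hl]
    simp only [K, dif_pos v.2]
  have hmem := (duality_global hp2 D T hT N hN hμ hbig M hp hMN hG).right κJ hzero
  obtain ⟨c, hc, hcd⟩ := hmem
  obtain ⟨h, hh, -, hhd, -⟩ := lift_split hT hp hN hbig hMN Q hQ.subset hQ.kill K hK hs hKQ c hc
    (fun a b => congrFun (congrFun hcd a) b)
  refine hch ?_
  show χ z = 0
  rw [← Finset.univ_sum_single z, map_sum]
  refine Finset.sum_eq_zero fun v _ => ?_
  obtain ⟨x, hx⟩ := QuotientAddGroup.mk'_surjective (L v.1) (z v)
  rw [← hx]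
  show χv v x = 0
  rw [hκ v]
  refine (D.loc v.1).pairHom_symB _ x (κ v) ⟨h v.1, hh v.1, funext₂ fun a b => ?_⟩
  show h v.1 a + h v.1 b - h v.1 (a + b) = (κ v).1 a b
  rw [hhd v.1 v.2]
  simp only [K, dif_pos v.2]

end Fermat.Agent.GD
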