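import Fermat.Agent.GD.GW.Ad0Count
import Fermat.Agent.TW.Select

/-!
# Taylor-Wiles primes killing the dual adjoint classes
-/

set_option autoImplicit false

noncomputable section

namespace Fermat.Agent.GD

open Fermat.Agent.Galois (GQ)
open Matrix Polynomial

local notation "ℚb" => AlgebraicClosure ℚ

variable {k : Type} [Field k] {R : GQ →* Matrix (Fin 2) (Fin 2) k}
variable {M : Type} [AddCommGroup M] [DistribMulAction GQ M] {T : Finset Nat.Primes}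

local instance : DistribMulAction (LT T).G M := inferInstanceAs (DistribMulAction GQ M)

variable {p : ℕ} [Fact p.Prime] [Finite k] [CharP k p]

/-- The properties asked of a Taylor-Wiles prime. -/
def IsTWPrime (p : ℕ) (R : GQ →* Matrix (Fin 2) (Fin 2) k) (n : ℕ) (q : Nat.Primes) : Prop :=
  p ^ (n + 1) ∣ (q : ℕ) - 1 ∧ ∀ A : ValuationSubring ℚb, A.LiesOverPrime (q : ℕ) →
    ∀ φ : GQ, A.IsFrobeniusAt φ (q : ℕ) →
      ∃ α β : k, α ≠ β ∧ (R φ).charpoly = (X - C α) * (X - C β)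

/-- The prime sees the class of a twisted cocycle. -/
def Detects (q : Nat.Primes) (x : GQ → Ad0Tw R) : Prop :=
  ¬ ∃ m, ∀ d ∈ decomp (some q), x d = d • m - m

theorem exists_detect (h : TW.TWHyp p R) (x : (LT T).Z1 (Ad0Tw R))
    (hx : x.1 ∉ (LT T).B1 (Ad0Tw R)) (n : ℕ) (bad : Finset Nat.Primes) :
    ∃ q, q ∉ bad ∧ IsTWPrime p R n q ∧ Detects q x.1 := by
  have hc : ∀ σ τ : GQ, x.1 (σ * τ) = x.1 σ + σ • x.1 τ := x.2.2
  have hψ : TW.IsTwCocycle R fun σ => Ad0Tw.mat (x.1 σ) :=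
    ⟨fun σ => Ad0Tw.trace_mat (x.1 σ), fun σ τ =>
      (congrArg Ad0Tw.mat (hc σ τ)).trans ((map_add _ _ _).trans rfl)⟩
  have hfin : ∃ F : IntermediateField ℚ ℚb, FiniteDimensional ℚ F ∧
      ∀ σ : GQ, (∀ z ∈ F, σ z = z) → Ad0Tw.mat (x.1 σ) = 0 := by
    obtain ⟨N, ⟨F, hF, rfl, -⟩, hN⟩ := x.2.1
    refine ⟨F, hF.1, fun σ hσ => ?_⟩
    have e : x.1 ((1 : GQ) * σ) = x.1 (1 : GQ) :=
      hN 1 σ ((IntermediateField.mem_fixingSubgroup_iff _ _).mpr hσ)
    rw [one_mul, cocycle_one hc] at e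
    rw [e, map_zero]
  have hne : ¬ TW.IsTwCoboundary R fun σ => Ad0Tw.mat (x.1 σ) := by
    rintro ⟨m, hm, hm'⟩
    refine hx ⟨(⟨m, mem_sl2.mpr hm⟩ : sl2 k), funext fun σ => Ad0Tw.mat_injective ?_⟩
    exact ((Ad0Tw.mat (R := R)).map_sub _ _).trans (hm' σ).symm
  obtain ⟨q, hq, hbad, hdvd, hfr⟩ :=
    TW.exists_twPrime p h hψ hfin hne n (bad.map ⟨fun r : Nat.Primes => (r : ℕ), Subtype.val_injective⟩)
  refine ⟨⟨q, hq⟩, fun hmem => hbad (Finset.mem_map.mpr ⟨_, hmem, rfl⟩),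
    ⟨hdvd, fun A hA φ hφ => (hfr A hA φ hφ).2.1⟩, ?_⟩
  rintro ⟨m, hm⟩
  obtain ⟨φ, hφ⟩ := Galois.exists_isFrobeniusAt (A := placeAt ⟨q, hq⟩) hq (placeAt_liesOverPrime _)
  refine (hfr _ (placeAt_liesOverPrime _) φ hφ).2.2 (Ad0Tw.mat m) ?_
  rw [hm φ hφ.mem_decompositionSubgroup, map_sub, Ad0Tw.mat_smul]

theorem exists_distinct_twPrime (h : TW.TWHyp p R) (n : ℕ) (bad : Finset Nat.Primes) :
    ∃ q, q ∉ bad ∧ IsTWPrime p R n q := by
  obtain ⟨q, hq, hbad, hdvd, hfr⟩ := TW.exists_twPrime_distinct p h n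
    (bad.map ⟨fun r : Nat.Primes => (r : ℕ), Subtype.val_injective⟩)
  exact ⟨⟨q, hq⟩, fun hmem => hbad (Finset.mem_map.mpr ⟨_, hmem, rfl⟩), hdvd, hfr⟩

/-- A fixed number of primes detecting every class. -/
theorem exists_detecting_set (h : TW.TWHyp p R) (n : ℕ) {ι : Type} (s : Finset ι)
    (x : ι → (LT T).Z1 (Ad0Tw R)) (hx : ∀ i ∈ s, (x i).1 ∉ (LT T).B1 (Ad0Tw R)) (r₀ : ℕ)
    (bad : Finset Nat.Primes) :
    ∃ Q : Finset Nat.Primes, Q.card = s.card + r₀ ∧ Disjoint Q bad ∧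
      (∀ q ∈ Q, IsTWPrime p R n q) ∧ ∀ i ∈ s, ∃ q ∈ Q, Detects q (x i).1 := by
  classical
  induction s using Finset.induction generalizing bad with
  | empty =>
    induction r₀ generalizing bad with
    | zero => exact ⟨∅, by simp, by simp, by simp, by simp⟩
    | succ r ih =>
      obtain ⟨q, hq, hqP⟩ := exists_distinct_twPrime h n bad
      obtain ⟨Q, hQc, hQd, hQP, -⟩ := ih (insert q bad)
      have hqQ : q ∉ Q := fun hm => Finset.disjoint_left.mp hQd hm (Finset.mem_insert_self _ _)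
      refine ⟨insert q Q, ?_, ?_, fun r hr => ?_, by simp⟩
      · rw [Finset.card_insert_of_notMem hqQ, hQc]; omega
      · rw [Finset.disjoint_insert_left]
        exact ⟨hq, Finset.disjoint_left.mpr fun r hr hb =>
          Finset.disjoint_left.mp hQd hr (Finset.mem_insert_of_mem hb)⟩
      · rcases Finset.mem_insert.mp hr with rfl | hr
        · exact hqP
        · exact hQP r hr
  | insert a s ha ih =>
    obtain ⟨q, hq, hqP, hqD⟩ := exists_detect h (x a) (hx a (Finset.mem_insert_self _ _)) n bad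
    obtain ⟨Q, hQc, hQd, hQP, hQD⟩ :=
      ih (fun i hi => hx i (Finset.mem_insert_of_mem hi)) (insert q bad)
    have hqQ : q ∉ Q := fun hm => Finset.disjoint_left.mp hQd hm (Finset.mem_insert_self _ _)
    refine ⟨insert q Q, ?_, ?_, fun r hr => ?_, fun i hi => ?_⟩
    · rw [Finset.card_insert_of_notMem hqQ, hQc, Finset.card_insert_of_notMem ha]; omega
    · rw [Finset.disjoint_insert_left]
      exact ⟨hq, Finset.disjoint_left.mpr fun r hr hb =>
        Finset.disjoint_left.mp hQd hr (Finset.mem_insert_of_mem hb)⟩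
    · rcases Finset.mem_insert.mp hr with rfl | hr
      · exact hqP
      · exact hQP r hr
    · rcases Finset.mem_insert.mp hi with rfl | hi
      · exact ⟨q, Finset.mem_insert_self _ _, hqD⟩
      · obtain ⟨r, hr, hrD⟩ := hQD i hi
        exact ⟨r, Finset.mem_insert_of_mem hr, hrD⟩

/-- Primes killing all dual classes, in a number independent of the depth. -/
theorem exists_killing_primes (hp2 : p ≠ 2) (h : TW.TWHyp p R) {N : Subgroup (LT T).G}
    (hT : (⟨p, Fact.out⟩ : Nat.Primes) ∈ T) (hN : (LT T).IsLevel N) (hμ : FixesMu p N)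
    (hbig : IsBig T N) (hR : ∀ s ∈ N, R (show GQ from s) = 1) (r₀ : ℕ) :
    ∃ r, r₀ ≤ r ∧ ∀ n, ∃ Q : Finset Nat.Primes, Q.card = r ∧ Disjoint Q T ∧
      (∀ q ∈ Q, IsTWPrime p R n q) ∧
      ∀ y, IsDualCocycle (T ∪ Q) (Ad0 R) y → (∀ q ∈ Q, IsLocTrivial (Ad0 R) (some q) y) →
        IsDualCoboundary (Ad0 R) y := by
  classical
  obtain ⟨hfin, -, -⟩ := euler_global hp2 T hT N hN hμ hbig (Ad0Tw R) Ad0Tw.nsmul_eq_zero
    (fun s hs m => Ad0Tw.smul_eq_self (hR s hs) m)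
  have hmk := QuotientAddGroup.mk'_surjective
    (((LT T).B1 (Ad0Tw R)).addSubgroupOf ((LT T).Z1 (Ad0Tw R)))
  choose rep hrep using hmk
  letI : Fintype ((LT T).H1 (Ad0Tw R)) := @Fintype.ofFinite _ hfin
  let s : Finset ((LT T).H1 (Ad0Tw R)) := Finset.univ.filter (· ≠ 0)
  refine ⟨s.card + r₀, Nat.le_add_left _ _, fun n => ?_⟩
  obtain ⟨Q, hQc, hQd, hQP, hQD⟩ := exists_detecting_set h n s rep (fun c hc hB =>
    (Finset.mem_filter.mp hc).2 (by
      rw [← hrep c]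
      exact (QuotientAddGroup.eq_zero_iff (rep c)).mpr hB)) r₀ T
  refine ⟨Q, hQc, hQd, hQP, fun y hy hloc => ?_⟩
  let x : GQ → Ad0Tw R := fun g => (adDualEquiv h).symm (y g)
  have hxc : ∀ g g', x (g * g') = x g + g • x g' := fun g g' => by
    show (adDualEquiv h).symm (y (g * g')) = _
    rw [hy.2, map_add, adDualEquiv_symm_smul]
  obtain ⟨N₁, hN₁, hN₁'⟩ := hy.1
  obtain ⟨F₁, hF₁, hF₁N, -⟩ := id hN₁
  have hx0 : ∀ σ ∈ F₁.fixingSubgroup, x σ = 0 := fun σ hσ => by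
    have e : y ((1 : GQ) * σ) = y (1 : GQ) := hN₁' 1 σ (hF₁N ▸ hσ)
    rw [one_mul] at e
    show (adDualEquiv h).symm (y σ) = 0
    rw [e]
    exact cocycle_one hxc
  have hxloc : ∀ q ∈ Q, ∃ m, ∀ d ∈ decomp (some q), x d = d • m - m := fun q hq => by
    obtain ⟨φ, hφ⟩ := hloc q hq
    refine ⟨(adDualEquiv h).symm φ, fun d hd => ?_⟩
    show (adDualEquiv h).symm (y d) = _
    rw [hφ d hd, map_sub, adDualEquiv_symm_smul]
  have htriv : ∀ q : Nat.Primes, q ∉ T → ∀ A : ValuationSubring ℚb, A.LiesOverPrime (q : ℕ) →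
      ∀ σ ∈ A.inertiaSubgroupIn ℚ, ∀ m : Ad0Tw R, σ • m = m := fun q hq A hA σ hσ m =>
    Ad0Tw.smul_eq_self (hR σ (inertia_le_of_level hN hq hA hσ)) m
  have hxI : ∀ q : Nat.Primes, q ∉ T → ∀ A : ValuationSubring ℚb, A.LiesOverPrime (q : ℕ) →
      ∀ σ ∈ A.inertiaSubgroupIn ℚ, x σ = 0 := fun q hq A hA σ hσ => by
    by_cases hqQ : q ∈ Q
    · obtain ⟨m, hm⟩ := hxloc q hqQ
      refine cocycle_inertia_conj hxc (htriv q hq) (fun t ht => ?_) hA hσ
      obtain ⟨t', ht', rfl⟩ := ht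
      exact (hm _ t'.2).trans (sub_eq_zero.mpr
        (htriv q hq _ (placeAt_liesOverPrime q) _ ⟨t', ht', rfl⟩ m))
    · exact hx0 σ (hF₁.2 q (by simp [hq, hqQ]) A hA hσ)
  have hxT : (LT T).Const₁ x := const₁_of_inertia hN
    (fun s hs m => Ad0Tw.smul_eq_self (hR s hs) m) hxc ⟨F₁, hF₁.1, hx0⟩ hxI
  let X : (LT T).Z1 (Ad0Tw R) := ⟨x, hxT, hxc⟩
  set c : (LT T).H1 (Ad0Tw R) := QuotientAddGroup.mk X with hc
  have hback : ∀ g, adDualEquiv h (x g) = y g := fun g => (adDualEquiv h).apply_symm_apply _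
  by_cases hc0 : c = 0
  · obtain ⟨m, hm⟩ := (QuotientAddGroup.eq_zero_iff X).mp hc0
    refine ⟨adDualEquiv h m, fun g => ?_⟩
    rw [← hback g, show x g = g • m - m from (congrFun hm g).symm, map_sub]
    exact congrArg (· - _) (adDual_smul h g m)
  · obtain ⟨q, hq, hqD⟩ := hQD c (Finset.mem_filter.mpr ⟨Finset.mem_univ _, hc0⟩)
    exfalso
    obtain ⟨m₀, hm₀⟩ := QuotientAddGroup.eq.mp ((hrep c).trans hc)
    obtain ⟨m, hm⟩ := hxloc q hq
    refine hqD ⟨m - m₀, fun d hd => ?_⟩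
    have e : d • m₀ - m₀ = -(rep c).1 d + x d := congrFun hm₀ d
    have e2 : (rep c).1 d = x d - (d • m₀ - m₀) := by rw [e]; abel
    rw [e2, hm d hd, smul_sub]
    abel

end Fermat.Agent.GD
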